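import Mathlib

/-!
Shared definitions for the S23 project (integral structure on cusp forms).
-/

set_option autoImplicit false

namespace Fermat.Agent.S23

/-- A complex power series all of whose coefficients are integers. -/
def IsIntSeries (s : PowerSeries ℂ) : Prop := ∀ n, ∃ m : ℤ, s.coeff n = m

/-- A complex power series all of whose coefficients are rational. -/
def IsRatSeries (s : PowerSeries ℂ) : Prop := ∀ n, ∃ r : ℚ, s.coeff n = r

/-- A complex power series with rational coefficients of bounded denominator. -/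
def BddDen (s : PowerSeries ℂ) : Prop :=
  ∃ D : ℕ, D ≠ 0 ∧ ∀ n, ∃ m : ℤ, (D : ℂ) * s.coeff n = m

theorem IsIntSeries.add {s t : PowerSeries ℂ} (hs : IsIntSeries s) (ht : IsIntSeries t) :
    IsIntSeries (s + t) := fun n => by
  obtain ⟨a, ha⟩ := hs n
  obtain ⟨b, hb⟩ := ht n
  exact ⟨a + b, by rw [map_add, ha, hb]; push_cast; ring⟩

theorem IsIntSeries.neg {s : PowerSeries ℂ} (hs : IsIntSeries s) : IsIntSeries (-s) := fun n => by
  obtain ⟨a, ha⟩ := hs n
  exact ⟨-a, by rw [map_neg, ha]; push_cast; ring⟩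

theorem IsIntSeries.sub {s t : PowerSeries ℂ} (hs : IsIntSeries s) (ht : IsIntSeries t) :
    IsIntSeries (s - t) := by
  rw [sub_eq_add_neg]; exact hs.add ht.neg

theorem isIntSeries_zero : IsIntSeries 0 := fun n => ⟨0, by simp⟩

theorem isIntSeries_one : IsIntSeries 1 := fun n => by
  rw [PowerSeries.coeff_one]
  split_ifs
  · exact ⟨1, by simp⟩
  · exact ⟨0, by simp⟩

theorem IsIntSeries.mul {s t : PowerSeries ℂ} (hs : IsIntSeries s) (ht : IsIntSeries t) :
    IsIntSeries (s * t) := fun n => by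
  choose a ha using hs
  choose b hb using ht
  refine ⟨∑ p ∈ Finset.HasAntidiagonal.antidiagonal n, a p.1 * b p.2, ?_⟩
  rw [PowerSeries.coeff_mul]
  push_cast
  exact Finset.sum_congr rfl fun p _ => by rw [ha, hb]

theorem IsIntSeries.pow {s : PowerSeries ℂ} (hs : IsIntSeries s) (m : ℕ) :
    IsIntSeries (s ^ m) := by
  induction m with
  | zero => simpa using isIntSeries_one
  | succ m ih => rw [pow_succ]; exact ih.mul hs

theorem IsIntSeries.intSmul {s : PowerSeries ℂ} (hs : IsIntSeries s) (c : ℤ) :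
    IsIntSeries ((c : ℂ) • s) := fun n => by
  obtain ⟨a, ha⟩ := hs n
  exact ⟨c * a, by rw [PowerSeries.coeff_smul, ha]; push_cast; simp⟩

theorem IsIntSeries.sum {ι : Type*} {S : Finset ι} {s : ι → PowerSeries ℂ}
    (hs : ∀ i ∈ S, IsIntSeries (s i)) : IsIntSeries (∑ i ∈ S, s i) := by
  classical
  induction S using Finset.induction_on with
  | empty => simpa using isIntSeries_zero
  | insert i T hi ih =>
    rw [Finset.sum_insert hi]
    exact (hs i (Finset.mem_insert_self _ _)).add
      (ih fun j hj => hs j (Finset.mem_insert_of_mem hj))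

/-- `BddDen s` iff some nonzero natural multiple of `s` is integral. -/
theorem bddDen_iff {s : PowerSeries ℂ} :
    BddDen s ↔ ∃ D : ℕ, D ≠ 0 ∧ IsIntSeries ((D : ℂ) • s) := by
  constructor
  · rintro ⟨D, hD, h⟩
    exact ⟨D, hD, fun n => by simpa [PowerSeries.coeff_smul] using h n⟩
  · rintro ⟨D, hD, h⟩
    exact ⟨D, hD, fun n => by simpa [PowerSeries.coeff_smul] using h n⟩

theorem IsIntSeries.bddDen {s : PowerSeries ℂ} (hs : IsIntSeries s) : BddDen s :=
  ⟨1, one_ne_zero, fun n => by simpa using hs n⟩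

theorem BddDen.isRatSeries {s : PowerSeries ℂ} (hs : BddDen s) : IsRatSeries s := by
  obtain ⟨D, hD, h⟩ := hs
  intro n
  obtain ⟨m, hm⟩ := h n
  refine ⟨(m : ℚ) / D, ?_⟩
  have hD' : (D : ℂ) ≠ 0 := by exact_mod_cast hD
  push_cast
  rw [← hm]
  field_simp

theorem BddDen.add {s t : PowerSeries ℂ} (hs : BddDen s) (ht : BddDen t) : BddDen (s + t) := by
  obtain ⟨D, hD, h⟩ := bddDen_iff.mp hs
  obtain ⟨E, hE, h'⟩ := bddDen_iff.mp ht
  refine bddDen_iff.mpr ⟨D * E, mul_ne_zero hD hE, ?_⟩
  have : ((D * E : ℕ) : ℂ) • (s + t) = ((E : ℤ) : ℂ) • ((D : ℂ) • s) + ((D : ℤ) : ℂ) • ((E : ℂ) • t) := by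
    simp only [smul_add, smul_smul]
    push_cast
    congr 1 <;> ring_nf
  rw [this]
  exact (h.intSmul _).add (h'.intSmul _)

theorem BddDen.mul {s t : PowerSeries ℂ} (hs : BddDen s) (ht : BddDen t) : BddDen (s * t) := by
  obtain ⟨D, hD, h⟩ := bddDen_iff.mp hs
  obtain ⟨E, hE, h'⟩ := bddDen_iff.mp ht
  refine bddDen_iff.mpr ⟨D * E, mul_ne_zero hD hE, ?_⟩
  have : ((D * E : ℕ) : ℂ) • (s * t) = ((D : ℂ) • s) * ((E : ℂ) • t) := by
    rw [smul_mul_smul_comm]
    push_cast
    rfl
  rw [this]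
  exact h.mul h'

theorem BddDen.ratSmul {s : PowerSeries ℂ} (hs : BddDen s) (r : ℚ) : BddDen ((r : ℂ) • s) := by
  obtain ⟨D, hD, h⟩ := bddDen_iff.mp hs
  refine bddDen_iff.mpr ⟨r.den * D, mul_ne_zero r.den_nz hD, ?_⟩
  have hr : ((r.den : ℕ) : ℂ) * (r : ℂ) = (r.num : ℂ) := by
    have := Rat.den_mul_eq_num r
    exact_mod_cast congrArg (fun x : ℚ => (x : ℂ)) this
  have : ((r.den * D : ℕ) : ℂ) • ((r : ℂ) • s) = ((r.num : ℤ) : ℂ) • ((D : ℂ) • s) := by
    simp only [smul_smul]
    push_cast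
    rw [← hr]
    ring_nf
  rw [this]
  exact h.intSmul _

theorem bddDen_zero : BddDen 0 := isIntSeries_zero.bddDen

theorem bddDen_one : BddDen 1 := isIntSeries_one.bddDen

theorem BddDen.neg {s : PowerSeries ℂ} (hs : BddDen s) : BddDen (-s) := by
  simpa using hs.ratSmul (-1)

theorem BddDen.sub {s t : PowerSeries ℂ} (hs : BddDen s) (ht : BddDen t) : BddDen (s - t) := by
  rw [sub_eq_add_neg]; exact hs.add ht.neg

theorem BddDen.pow {s : PowerSeries ℂ} (hs : BddDen s) (m : ℕ) : BddDen (s ^ m) := by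
  induction m with
  | zero => simpa using bddDen_one
  | succ m ih => rw [pow_succ]; exact ih.mul hs

theorem BddDen.sum {ι : Type*} {S : Finset ι} {s : ι → PowerSeries ℂ}
    (hs : ∀ i ∈ S, BddDen (s i)) : BddDen (∑ i ∈ S, s i) := by
  classical
  induction S using Finset.induction_on with
  | empty => simpa using bddDen_zero
  | insert i T hi ih =>
    rw [Finset.sum_insert hi]
    exact (hs i (Finset.mem_insert_self _ _)).add
      (ih fun j hj => hs j (Finset.mem_insert_of_mem hj))

/-- A ring endomorphism of `ℂ` fixes series with rational coefficients. -/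
theorem IsRatSeries.map_eq {s : PowerSeries ℂ} (hs : IsRatSeries s) (σ : ℂ →+* ℂ) :
    PowerSeries.map σ s = s := by
  ext n
  obtain ⟨r, hr⟩ := hs n
  rw [PowerSeries.coeff_map, hr, map_ratCast]

/-- The `ℂ`-span of the series with bounded denominators. -/
def bddSpan : Submodule ℂ (PowerSeries ℂ) := Submodule.span ℂ {s | BddDen s}

theorem BddDen.mem_bddSpan {s : PowerSeries ℂ} (hs : BddDen s) : s ∈ bddSpan :=
  Submodule.subset_span hs

theorem bddSpan_mul {s t : PowerSeries ℂ} (hs : s ∈ bddSpan) (ht : t ∈ bddSpan) :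
    s * t ∈ bddSpan := by
  induction hs using Submodule.span_induction with
  | mem x hx =>
    induction ht using Submodule.span_induction with
    | mem y hy => exact (BddDen.mul hx hy).mem_bddSpan
    | zero => simp
    | add y z _ _ hy hz => rw [mul_add]; exact bddSpan.add_mem hy hz
    | smul c y _ hy => rw [mul_smul_comm]; exact bddSpan.smul_mem c hy
  | zero => simp
  | add y z _ _ hy hz => rw [add_mul]; exact bddSpan.add_mem hy hz
  | smul c y _ hy => rw [smul_mul_assoc]; exact bddSpan.smul_mem c hy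

theorem bddSpan_pow {s : PowerSeries ℂ} (hs : s ∈ bddSpan) (m : ℕ) : s ^ m ∈ bddSpan := by
  induction m with
  | zero => simpa using bddDen_one.mem_bddSpan
  | succ m ih => rw [pow_succ]; exact bddSpan_mul ih hs

end Fermat.Agent.S23
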