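import Mathlib
import Fermat.Agent.S23.Basic

/-!
`niceSub`: the algebra of holomorphic, `1`-periodic functions on the upper half plane which are
bounded at `i∞`, and the `q`-expansion as an injective algebra homomorphism on it.
-/

set_option autoImplicit false

namespace Fermat.Agent.S23

open UpperHalfPlane Function Filter
open scoped MatrixGroups Manifold

/-- holomorphic, `1`-periodic, bounded at `i∞`. -/
def IsNice (f : ℍ → ℂ) : Prop :=
  Periodic (f ∘ ofComplex) 1 ∧ MDiff f ∧ IsBoundedAtImInfty f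

theorem IsNice.analyticAt {f : ℍ → ℂ} (hf : IsNice f) : AnalyticAt ℂ (cuspFunction 1 f) 0 :=
  analyticAt_cuspFunction_zero one_pos hf.1 hf.2.1 hf.2.2

theorem IsNice.add {f g : ℍ → ℂ} (hf : IsNice f) (hg : IsNice g) : IsNice (f + g) :=
  ⟨hf.1.add hg.1, hf.2.1.add hg.2.1, hf.2.2.add hg.2.2⟩

theorem IsNice.mul {f g : ℍ → ℂ} (hf : IsNice f) (hg : IsNice g) : IsNice (f * g) :=
  ⟨hf.1.mul hg.1, hf.2.1.mul hg.2.1, hf.2.2.mul hg.2.2⟩

theorem isNice_const (c : ℂ) : IsNice (fun _ => c) :=
  ⟨fun _ => rfl, mdifferentiable_const, const_boundedAtFilter _ c⟩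

/-- The algebra of nice functions. -/
def niceSub : Subalgebra ℂ (ℍ → ℂ) where
  carrier := {f | IsNice f}
  mul_mem' := IsNice.mul
  add_mem' := IsNice.add
  algebraMap_mem' c := isNice_const c

theorem mem_niceSub {f : ℍ → ℂ} : f ∈ niceSub ↔ IsNice f := Iff.rfl

theorem qExpansion_const (c : ℂ) : qExpansion 1 (fun _ : ℍ => c) = PowerSeries.C c := by
  have h1 : (fun _ : ℍ => c) = c • (1 : ℍ → ℂ) := by
    ext τ; simp
  have h2 : IsNice (1 : ℍ → ℂ) := isNice_const 1
  rw [h1, qExpansion_smul h2.analyticAt, qExpansion_one]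
  ext n
  simp [PowerSeries.coeff_C, PowerSeries.coeff_one]

/-- The `q`-expansion as an algebra homomorphism. -/
noncomputable def qHom : niceSub →ₐ[ℂ] PowerSeries ℂ where
  toFun f := qExpansion 1 f.1
  map_one' := qExpansion_one 1
  map_mul' f g := qExpansion_mul (IsNice.analyticAt f.2) (IsNice.analyticAt g.2)
  map_zero' := qExpansion_zero 1
  map_add' f g := qExpansion_add (IsNice.analyticAt f.2) (IsNice.analyticAt g.2)
  commutes' c := qExpansion_const c

@[simp] theorem qHom_apply (f : niceSub) : qHom f = qExpansion 1 f.1 := rfl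

theorem qHom_injective : Function.Injective qHom := by
  rw [injective_iff_map_eq_zero]
  intro f hf
  have := (qExpansion_eq_zero_iff one_pos f.2.1 f.2.2.1 f.2.2.2).mp hf
  exact Subtype.ext this

theorem isNice_of_modularFormClass {F : Type*} [FunLike F ℍ ℂ] {Γ : Subgroup (GL (Fin 2) ℝ)}
    {k : ℤ} [ModularFormClass F Γ k] (hΓ : (1 : ℝ) ∈ Γ.strictPeriods) (f : F) : IsNice f :=
  have : Fact (IsCusp OnePoint.infty Γ) := ⟨Γ.isCusp_of_mem_strictPeriods one_pos hΓ⟩
  ⟨SlashInvariantFormClass.periodic_comp_ofComplex f hΓ, ModularFormClass.holo f,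
    ModularFormClass.bdd_at_infty f⟩

end Fermat.Agent.S23
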