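import Mathlib
import Fermat.Agent.S23.Basic

set_option autoImplicit false

namespace Fermat.Agent.S23

open UpperHalfPlane ModularForm EisensteinSeries ModularFormClass MatrixGroups

/-- The subring of complex power series with integer coefficients. -/
noncomputable def intSeries : Subring (PowerSeries ℂ) :=
  (PowerSeries.map (Int.castRingHom ℂ)).range

theorem mem_intSeries_iff {p : PowerSeries ℂ} :
    p ∈ intSeries ↔ ∀ n, ∃ m : ℤ, p.coeff n = (m : ℂ) := by
  constructor
  · rintro ⟨P, rfl⟩ n
    exact ⟨P.coeff n, by simp⟩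
  · intro h
    choose m hm using h
    refine ⟨PowerSeries.mk m, ?_⟩
    ext n
    simp [hm]

theorem qExpansion_E₄_mem : qExpansion 1 E₄ ∈ intSeries := by
  rw [mem_intSeries_iff]
  intro n
  rw [E_qExpansion_coeff _ ⟨2, rfl⟩]
  by_cases h : n = 0
  · exact ⟨1, by simp [h]⟩
  · refine ⟨240 * (ArithmeticFunction.sigma 3 n : ℤ), ?_⟩
    rw [if_neg h]
    norm_num [show bernoulli 4 = -1 / 30 by decide +kernel]

theorem qExpansion_E₆_mem : qExpansion 1 E₆ ∈ intSeries := by
  rw [mem_intSeries_iff]
  intro n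
  rw [E_qExpansion_coeff _ ⟨3, rfl⟩]
  by_cases h : n = 0
  · exact ⟨1, by simp [h]⟩
  · refine ⟨-504 * (ArithmeticFunction.sigma 5 n : ℤ), ?_⟩
    rw [if_neg h]
    norm_num [show bernoulli 6 = 1 / 42 by decide +kernel]

/-- Level one modular forms with integral `q`-expansion. -/
def intForms (k : ℤ) : Set (ModularForm 𝒮ℒ k) := {g | qExpansion 1 g ∈ intSeries}

theorem mul_mem_intForms {a b c : ℤ} (h : a + b = c) {f : ModularForm 𝒮ℒ a}
    {g : ModularForm 𝒮ℒ b} (hf : f ∈ intForms a) (hg : g ∈ intForms b) :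
    ModularForm.mcast h (f.mul g) ∈ intForms c := by
  show qExpansion 1 (ModularForm.mcast h (f.mul g)) ∈ intSeries
  rw [ModularForm.qExpansion_mcast, ModularForm.qExpansion_mul one_pos one_mem_strictPeriods_SL]
  exact mul_mem hf hg

/-- `1728 Δ = E₄³ - E₆²` as a level one form of weight `12`. -/
noncomputable def D12 : ModularForm 𝒮ℒ 12 :=
  ModularForm.mcast (by decide) (E₄.pow 3) - ModularForm.mcast (by decide) (E₆.pow 2)

theorem D12_apply (z : ℍ) : D12 z = 1728 * discriminant z := by
  rw [discriminant_eq_E₄_cube_sub_E₆_sq]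
  simp only [D12, coe_mcast, coe_pow, sub_apply, Pi.pow_apply]
  ring

theorem D12_mem : D12 ∈ intForms 12 := by
  show qExpansion 1 D12 ∈ intSeries
  simp only [D12, FunLike.coe_sub, coe_mcast,
    ModularForm.qExpansion_sub one_pos one_mem_strictPeriods_SL,
    ModularForm.qExpansion_pow one_pos one_mem_strictPeriods_SL]
  exact sub_mem (pow_mem qExpansion_E₄_mem 3) (pow_mem qExpansion_E₆_mem 2)

/-- For every even weight `k ≥ 4` there is an integral level one form with constant term `1`. -/
theorem exists_intForm_coeff_zero_eq_one (k : ℕ) (hk : 4 ≤ k) (hk2 : Even k) :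
    ∃ G : ModularForm 𝒮ℒ (k : ℤ), G ∈ intForms k ∧ (qExpansion 1 G).coeff 0 = 1 := by
  induction k using Nat.strong_induction_on with | h k ih =>
  have hcases : k = 4 ∨ k = 6 ∨ 8 ≤ k := by
    obtain ⟨m, rfl⟩ := hk2
    omega
  rcases hcases with rfl | rfl | h8
  · exact ⟨E₄, qExpansion_E₄_mem, E_qExpansion_coeff_zero _ ⟨2, rfl⟩⟩
  · exact ⟨E₆, qExpansion_E₆_mem, E_qExpansion_coeff_zero _ ⟨3, rfl⟩⟩
  · obtain ⟨G', hG', hG'0⟩ := ih (k - 4) (by omega) (by omega)
      (by obtain ⟨m, rfl⟩ := hk2; exact ⟨m - 2, by omega⟩)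
    have hw : (4 : ℤ) + ((k - 4 : ℕ) : ℤ) = (k : ℤ) := by omega
    refine ⟨ModularForm.mcast hw (E₄.mul G'), mul_mem_intForms hw qExpansion_E₄_mem hG', ?_⟩
    have h1 : (qExpansion 1 E₄ * qExpansion 1 G').coeff 0 =
        (qExpansion 1 E₄).coeff 0 * (qExpansion 1 G').coeff 0 := by simp
    rw [ModularForm.qExpansion_mcast,
      ModularForm.qExpansion_mul one_pos one_mem_strictPeriods_SL, h1,
      hG'0, E_qExpansion_coeff_zero _ ⟨2, rfl⟩, one_mul]

/-- Multiplication by `D12` as a linear map. -/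
noncomputable def mulD12 (k : ℤ) : ModularForm 𝒮ℒ (k - 12) →ₗ[ℂ] ModularForm 𝒮ℒ k where
  toFun h := ModularForm.mcast (by ring) (D12.mul h)
  map_add' a b := by
    ext z
    simp [mul_add]
  map_smul' c a := by
    ext z
    simp
    ring

theorem mulD12_apply (k : ℤ) (h : ModularForm 𝒮ℒ (k - 12)) (z : ℍ) :
    mulD12 k h z = D12 z * h z := rfl

theorem mulD12_mem {k : ℤ} {h : ModularForm 𝒮ℒ (k - 12)} (hh : h ∈ intForms (k - 12)) :
    mulD12 k h ∈ intForms k :=
  mul_mem_intForms (by ring) D12_mem hh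

private theorem span_intForms_step (k : ℤ) (G : ModularForm 𝒮ℒ k) (hG : G ∈ intForms k)
    (hG0 : (qExpansion 1 G).coeff 0 = 1)
    (ih : Submodule.span ℂ (intForms (k - 12)) = ⊤) (f : ModularForm 𝒮ℒ k) :
    f ∈ Submodule.span ℂ (intForms k) := by
  have h0 := (isCuspForm_iff_coeffZero_eq_zero _).mp (sub_smul_isCuspForm f G hG0)
  generalize hf₁ : f - (qExpansion 1 f).coeff 0 • G = f₁ at h0
  obtain ⟨h, hh⟩ : ∃ h, h = CuspForm.discriminantEquiv (toCuspForm f₁ h0) := ⟨_, rfl⟩
  have hmem : h ∈ Submodule.span ℂ (intForms (k - 12)) := by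
    rw [ih]
    trivial
  have hmem2 : mulD12 k h ∈ Submodule.span ℂ (intForms k) := by
    have := Submodule.mem_map_of_mem (f := mulD12 k) hmem
    rw [Submodule.map_span] at this
    refine Submodule.span_mono ?_ this
    rintro _ ⟨g, hg, rfl⟩
    exact mulD12_mem hg
  have hf1 : f₁ = (1728 : ℂ)⁻¹ • mulD12 k h := by
    ext z
    have h1 : discriminant z * h z = f₁ z := by
      rw [hh, discriminant_mul_discriminantEquiv_apply, toCuspForm_apply]
    rw [smul_apply, smul_eq_mul, mulD12_apply, D12_apply]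
    linear_combination -h1
  have hf : f = (qExpansion 1 f).coeff 0 • G + f₁ := by
    rw [← hf₁]; abel
  rw [hf, hf1]
  exact add_mem (Submodule.smul_mem _ _ (Submodule.subset_span hG))
    (Submodule.smul_mem _ _ hmem2)

private theorem span_intForms_aux (n : ℕ) :
    ∀ k : ℤ, k < n → Submodule.span ℂ (intForms k) = ⊤ := by
  induction n with
  | zero =>
    intro k hk
    rw [eq_top_iff]
    intro f _
    have : f = 0 := rank_zero_iff_forall_zero.mp (levelOne_neg_weight_rank_zero (by simpa using hk)) f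
    rw [this]
    exact zero_mem _
  | succ n ih =>
    intro k hk
    rw [eq_top_iff]
    intro f _
    rcases lt_or_ge k 0 with hneg | hnn
    · have : f = 0 := rank_zero_iff_forall_zero.mp (levelOne_neg_weight_rank_zero hneg) f
      rw [this]
      exact zero_mem _
    rcases Int.even_or_odd k with hev | hodd
    swap
    · rw [levelOne_odd_weight_eq_zero hodd f]
      exact zero_mem _
    have hcases : k = 0 ∨ k = 2 ∨ 4 ≤ k := by
      obtain ⟨m, rfl⟩ := hev
      omega
    rcases hcases with rfl | rfl | h4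
    · obtain ⟨c, hc⟩ := levelOne_weight_zero_const f
      have hf : f = c • (1 : ModularForm 𝒮ℒ 0) := by
        ext z
        simp [hc]
      rw [hf]
      refine Submodule.smul_mem _ _ (Submodule.subset_span ?_)
      show qExpansion 1 (1 : ModularForm 𝒮ℒ 0) ∈ intSeries
      rw [ModularForm.qExpansion_one]
      exact one_mem _
    · have : f = 0 := rank_zero_iff_forall_zero.mp levelOne_weight_two_rank_zero f
      rw [this]
      exact zero_mem _
    · lift k to ℕ using hnn
      obtain ⟨G, hG, hG0⟩ := exists_intForm_coeff_zero_eq_one k (by exact_mod_cast h4)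
        (by exact_mod_cast hev)
      exact span_intForms_step k G hG hG0 (ih ((k : ℤ) - 12) (by omega)) f

/-- **Integral structure in level one**: the level one forms of weight `k` are spanned by the
forms with integral `q`-expansion. -/
theorem span_intForms_eq_top (k : ℤ) : Submodule.span ℂ (intForms k) = ⊤ :=
  span_intForms_aux (k.toNat + 1) k (by omega)

/-- The `q`-expansion as a linear map on level one forms. -/
noncomputable def qExpL (k : ℤ) : ModularForm 𝒮ℒ k →ₗ[ℂ] PowerSeries ℂ where
  toFun f := qExpansion 1 f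
  map_add' f g := ModularForm.qExpansion_add one_pos one_mem_strictPeriods_SL f g
  map_smul' c f := ModularForm.qExpansion_smul one_pos one_mem_strictPeriods_SL c f

@[simp] theorem qExpL_apply (k : ℤ) (f : ModularForm 𝒮ℒ k) : qExpL k f = qExpansion 1 f := rfl

/-- Every level one form is a finite complex combination of integral level one forms. -/
theorem exists_finsupp_intForms {k : ℤ} (f : ModularForm 𝒮ℒ k) :
    ∃ c : ModularForm 𝒮ℒ k →₀ ℂ, (↑c.support ⊆ intForms k) ∧ c.sum (fun g r => r • g) = f := by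
  have hf : f ∈ Submodule.span ℂ (intForms k) := by rw [span_intForms_eq_top]; trivial
  exact (Submodule.mem_span_set).mp hf

/-- **Applying an additive map to the coefficients of a level one form.**  For every additive
map `π : ℂ →+ ℂ` and level one form `f` there is a level one form of the same weight whose
`q`-coefficients are `π (a_n(f))`.  If `π` takes rational values the new form has bounded
denominators. -/
theorem exists_levelOne_map_coeff {k : ℤ} (π : ℂ →+ ℂ) (f : ModularForm 𝒮ℒ k) :
    ∃ g : ModularForm 𝒮ℒ k, (∀ n, (qExpansion 1 g).coeff n = π ((qExpansion 1 f).coeff n)) ∧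
      ((∀ x, ∃ r : ℚ, π x = (r : ℂ)) →
        ∃ D : ℕ, D ≠ 0 ∧ (D : ℂ) • qExpansion 1 g ∈ intSeries) := by
  classical
  obtain ⟨c, hc, rfl⟩ := exists_finsupp_intForms f
  refine ⟨c.sum (fun g r => π r • g), ?_, ?_⟩
  · intro n
    rw [← qExpL_apply, ← qExpL_apply, Finsupp.sum, Finsupp.sum, map_sum, map_sum, map_sum,
      map_sum, map_sum]
    refine Finset.sum_congr rfl fun g hg => ?_
    obtain ⟨m, hm⟩ := mem_intSeries_iff.mp (hc hg) n
    rw [map_smul (qExpL k), map_smul (qExpL k), qExpL_apply, PowerSeries.coeff_smul,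
      PowerSeries.coeff_smul, hm,
      smul_eq_mul, smul_eq_mul, mul_comm, mul_comm (c g), ← zsmul_eq_mul, ← zsmul_eq_mul,
      map_zsmul]
  · intro hπ
    choose r hr using hπ
    refine ⟨∏ g ∈ c.support, (r (c g)).den, ?_, ?_⟩
    · exact Finset.prod_ne_zero_iff.mpr fun g _ => (r (c g)).den_nz
    · rw [← qExpL_apply, Finsupp.sum, map_sum, Finset.smul_sum]
      refine sum_mem fun g hg => ?_
      rw [map_smul, qExpL_apply, smul_smul]
      have hdvd : (r (c g)).den ∣ ∏ g ∈ c.support, (r (c g)).den := Finset.dvd_prod_of_mem _ hg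
      obtain ⟨e, he⟩ := hdvd
      have hint : ((∏ g ∈ c.support, (r (c g)).den : ℕ) : ℂ) * π (c g) =
          ((e * (r (c g)).num : ℤ) : ℂ) := by
        rw [he, hr]
        have hden : ((r (c g)).den : ℂ) ≠ 0 := by exact_mod_cast (r (c g)).den_nz
        have hq : ((r (c g) : ℚ) : ℂ) = ((r (c g)).num : ℂ) / ((r (c g)).den : ℂ) := by
          exact_mod_cast (Rat.num_div_den (r (c g))).symm
        rw [hq]
        push_cast
        field_simp
      rw [hint]
      have : (((e * (r (c g)).num : ℤ) : ℂ)) • qExpansion 1 g =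
          (e * (r (c g)).num : ℤ) • qExpansion 1 g := by
        rw [zsmul_eq_mul, PowerSeries.smul_eq_C_mul]
        simp
      rw [this]
      exact zsmul_mem (hc hg) _

/-- **Conjugating level one forms.** -/
theorem exists_levelOne_conj {k : ℤ} (σ : ℂ →+* ℂ) (f : ModularForm 𝒮ℒ k) :
    ∃ g : ModularForm 𝒮ℒ k, qExpansion 1 g = PowerSeries.map σ (qExpansion 1 f) := by
  obtain ⟨g, hg, -⟩ := exists_levelOne_map_coeff σ.toAddMonoidHom f
  refine ⟨g, ?_⟩
  ext n
  rw [hg, PowerSeries.coeff_map]
  rfl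

/-! ### Export shapes used by the rest of the S23 project -/

theorem isIntSeries_of_mem_intSeries {p : PowerSeries ℂ} (h : p ∈ intSeries) : IsIntSeries p :=
  mem_intSeries_iff.mp h

theorem levelOne_span_bddDen (k : ℤ) :
    Submodule.span ℂ {g : ModularForm 𝒮ℒ k | BddDen (qExpansion 1 g)} = ⊤ := by
  rw [eq_top_iff, ← span_intForms_eq_top k]
  exact Submodule.span_mono fun g hg => (isIntSeries_of_mem_intSeries hg).bddDen

theorem bddDen_discriminant : BddDen (qExpansion 1 ModularForm.discriminant) := by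
  have h1 : (D12 : ℍ → ℂ) = (1728 : ℂ) • (CuspForm.discriminant : ℍ → ℂ) := by
    funext z
    rw [D12_apply]
    rfl
  have h2 : qExpansion 1 D12 = (1728 : ℂ) • qExpansion 1 ModularForm.discriminant := by
    rw [h1, ModularForm.qExpansion_smul one_pos one_mem_strictPeriods_SL]
    rfl
  refine bddDen_iff.mpr ⟨1728, by norm_num, ?_⟩
  have h3 := isIntSeries_of_mem_intSeries D12_mem
  rw [h2] at h3
  exact_mod_cast h3

theorem levelOne_conj (σ : ℂ →+* ℂ) {k : ℤ} (g : ModularForm 𝒮ℒ k) :
    ∃ g' : ModularForm 𝒮ℒ k, qExpansion 1 g' = PowerSeries.map σ (qExpansion 1 g) :=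
  exists_levelOne_conj σ g

theorem levelOne_qExpansion_mem_bddSpan {k : ℤ} (g : ModularForm 𝒮ℒ k) :
    qExpansion 1 g ∈ bddSpan := by
  have hg : g ∈ Submodule.span ℂ {g : ModularForm 𝒮ℒ k | BddDen (qExpansion 1 g)} := by
    rw [levelOne_span_bddDen]; trivial
  have := Submodule.mem_map_of_mem (f := qExpL k) hg
  rw [Submodule.map_span] at this
  refine Submodule.span_mono ?_ this
  rintro _ ⟨h, hh, rfl⟩
  exact hh

end Fermat.Agent.S23
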