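import Mathlib
import Fermat.Prelude.Def_ModularForm_HeckeOperator
import Fermat.Prelude.Sol.S_UpperHalfPlane_qCoeff_heckeT
import Fermat.Prelude.Thm_CongruenceSubgroup_one_mem_strictPeriods_Gamma0
import Fermat.Agent.S23.Basic
import Fermat.Agent.S23.LevelOne

set_option autoImplicit false

open UpperHalfPlane ModularForm CongruenceSubgroup Matrix.SpecialLinearGroup
open scoped MatrixGroups ModularForm Manifold Pointwise

namespace Fermat.Agent.S23

theorem mapGL_apply_entry (δ : SL(2, ℤ)) (i j : Fin 2) :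
    ((mapGL ℝ δ : GL (Fin 2) ℝ) : Matrix (Fin 2) (Fin 2) ℝ) i j = ((δ i j : ℤ) : ℝ) := by
  rw [mapGL_coe_matrix]; rfl

open ConjAct in
theorem Gamma0_le_conj (N : ℕ) [NeZero N] :
    ((Gamma0 N : Subgroup SL(2, ℤ)) : Subgroup (GL (Fin 2) ℝ)) ≤
      toConjAct (heckeDiagMatrix N)⁻¹ • 𝒮ℒ := by
  intro g hg
  obtain ⟨γ, hγ, rfl⟩ := hg
  rw [map_inv, Subgroup.mem_inv_pointwise_smul_iff, toConjAct_smul]
  have hγ' : ((γ 1 0 : ℤ) : ZMod N) = 0 := Gamma0_mem.mp hγ
  rw [ZMod.intCast_zmod_eq_zero_iff_dvd] at hγ'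
  obtain ⟨c', hc'⟩ := hγ'
  have hdet : γ 0 0 * γ 1 1 - γ 0 1 * γ 1 0 = 1 := by
    have := γ.det_coe
    rwa [Matrix.det_fin_two] at this
  let δ : SL(2, ℤ) := ⟨!![γ 0 0, N * γ 0 1; c', γ 1 1], by
    rw [Matrix.det_fin_two_of]; rw [hc'] at hdet; linarith⟩
  refine ⟨δ, ?_⟩
  rw [eq_mul_inv_iff_mul_eq]
  apply Matrix.GeneralLinearGroup.ext
  intro i j
  have hN : N ≠ 0 := NeZero.ne N
  simp only [Matrix.GeneralLinearGroup.coe_mul, val_heckeDiagMatrix hN]
  have hc'' : ((γ 1 0 : ℤ) : ℝ) = N * c' := by rw [hc']; push_cast; ring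
  have e00 : ((mapGL ℝ δ : GL (Fin 2) ℝ) : Matrix (Fin 2) (Fin 2) ℝ) 0 0 = ((γ 0 0 : ℤ) : ℝ) := by
    rw [mapGL_apply_entry]; rfl
  have e01 : ((mapGL ℝ δ : GL (Fin 2) ℝ) : Matrix (Fin 2) (Fin 2) ℝ) 0 1 = N * ((γ 0 1 : ℤ) : ℝ) := by
    rw [mapGL_apply_entry]; simp [δ]
  have e10 : ((mapGL ℝ δ : GL (Fin 2) ℝ) : Matrix (Fin 2) (Fin 2) ℝ) 1 0 = (c' : ℝ) := by
    rw [mapGL_apply_entry]; rfl
  have e11 : ((mapGL ℝ δ : GL (Fin 2) ℝ) : Matrix (Fin 2) (Fin 2) ℝ) 1 1 = ((γ 1 1 : ℤ) : ℝ) := by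
    rw [mapGL_apply_entry]; rfl
  fin_cases i <;> fin_cases j <;>
    simp only [Matrix.mul_apply, Fin.sum_univ_two, Fin.zero_eta, Fin.mk_one, Fin.isValue,
      mapGL_apply_entry γ, hc'', e00, e01, e10, e11, Matrix.of_apply, Matrix.cons_val',
      Matrix.cons_val_zero, Matrix.cons_val_one, Matrix.cons_val_fin_one] <;> ring

/-- `Δ ∣[12] diag(N,1)` as a modular form on `Γ₀(N)`. -/
noncomputable def dilAux (N : ℕ) [NeZero N] : ModularForm (Gamma0 N) 12 where
  toFun := ModularForm.translate CuspForm.discriminant (heckeDiagMatrix N)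
  slash_action_eq' γ hγ :=
    (ModularForm.translate CuspForm.discriminant (heckeDiagMatrix N)).slash_action_eq' γ
      (Gamma0_le_conj N hγ)
  holo' := (ModularForm.translate CuspForm.discriminant (heckeDiagMatrix N)).holo'
  bdd_at_cusps' hc :=
    (ModularForm.translate CuspForm.discriminant (heckeDiagMatrix N)).bdd_at_cusps'
      (hc.mono (Gamma0_le_conj N))

/-- `τ ↦ Δ(Nτ)` as a modular form of weight 12 on `Γ₀(N)`. -/
noncomputable def dil (N : ℕ) [NeZero N] : ModularForm (Gamma0 N) 12 :=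
  (((N : ℂ) ^ (11 : ℤ))⁻¹) • dilAux N

theorem dil_apply (N : ℕ) [NeZero N] (τ : ℍ) :
    dil N τ = ModularForm.discriminant (ModularForm.heckeDiagMatrix N • τ) := by
  have hN : N ≠ 0 := NeZero.ne N
  have hN' : (N : ℂ) ≠ 0 := by exact_mod_cast hN
  have h1 : dilAux N τ = (ModularForm.discriminant ∣[(12 : ℤ)] heckeDiagMatrix N) τ := rfl
  rw [dil, smul_apply, h1, slash_heckeDiagMatrix_apply 12 hN, smul_eq_mul]
  norm_num
  field_simp

theorem qExpansion_dil_coeff (N : ℕ) [NeZero N] (n : ℕ) :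
    (qExpansion 1 (dil N)).coeff n =
      if N ∣ n then (qExpansion 1 ModularForm.discriminant).coeff (n / N) else 0 := by
  have hN : N ≠ 0 := NeZero.ne N
  symm
  refine ModularFormClass.qExpansion_coeff_unique (f := dil N)
    (c := fun n => if N ∣ n then (qExpansion 1 ModularForm.discriminant).coeff (n / N) else 0)
    one_pos (CongruenceSubgroup.one_mem_strictPeriods_Gamma0 N) (fun τ => ?_) n
  have h := P2MW.S_UpperHalfPlane_qCoeff_heckeT.M4cP1W2.hasSum_diag (p := N) hN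
    (f := ModularForm.discriminant)
    (SlashInvariantFormClass.periodic_comp_ofComplex CuspForm.discriminant
      one_mem_strictPeriods_SL)
    (CuspForm.discriminant).holo'
    (ModularFormClass.bdd_at_infty CuspForm.discriminant) 1 τ
  rw [dil_apply]
  simp only [sub_self, zpow_zero, one_mul] at h
  convert h using 1
  funext m
  split_ifs
  · rfl
  · simp

theorem bddDen_dil_of (N : ℕ) [NeZero N] (h : BddDen (qExpansion 1 ModularForm.discriminant)) :
    BddDen (qExpansion 1 (dil N)) := by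
  obtain ⟨D, hD, hh⟩ := h
  refine ⟨D, hD, fun n => ?_⟩
  rw [qExpansion_dil_coeff]
  split_ifs
  · exact hh _
  · exact ⟨0, by simp⟩

theorem bddDen_dil (N : ℕ) [NeZero N] : BddDen (qExpansion 1 (dil N)) :=
  bddDen_dil_of N bddDen_discriminant

end Fermat.Agent.S23
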