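import Mathlib
import Fermat.Prelude.Def_ModularForm_HeckeOperator
import Fermat.Agent.S23.Dilate

set_option autoImplicit false

open UpperHalfPlane ModularForm CongruenceSubgroup Matrix.SpecialLinearGroup
open scoped MatrixGroups ModularForm Manifold Pointwise Real

namespace Fermat.Agent.S23

theorem exists_triangular_int (N : ℕ) (hN : N ≠ 0) (a b c d : ℤ) (hdet : a * d - b * c = 1)
    (hc : ¬ (N : ℤ) ∣ c) :
    ∃ (r s z x : ℤ) (A D : ℕ), r * x + s * z = 1 ∧ A * D = N ∧ 2 ≤ D ∧ 0 < A ∧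
      r * (N * a) + s * c = A ∧ -z * (N * a) + x * c = 0 ∧ -z * (N * b) + x * d = D := by
  have hc0 : c ≠ 0 := by rintro rfl; exact hc (dvd_zero _)
  obtain ⟨g, hg⟩ : ∃ g : ℕ, g = Int.gcd (N * a) c := ⟨_, rfl⟩
  have hg0 : g ≠ 0 := by
    rw [hg, Ne, Int.gcd_eq_zero_iff]; tauto
  have hg0' : (g : ℤ) ≠ 0 := by exact_mod_cast hg0
  obtain ⟨x, hx⟩ : (g : ℤ) ∣ N * a := hg ▸ Int.gcd_dvd_left _ _
  obtain ⟨z, hz⟩ : (g : ℤ) ∣ c := hg ▸ Int.gcd_dvd_right _ _
  have hgN : (g : ℤ) ∣ N := by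
    have : (N : ℤ) = (N * a) * d - N * b * c := by linear_combination -(N : ℤ) * hdet
    rw [this, hx, hz]
    exact ⟨x * d - N * b * z, by ring⟩
  obtain ⟨D, hD⟩ : g ∣ N := by exact_mod_cast hgN
  have hD' : (N : ℤ) = g * D := by exact_mod_cast hD
  -- Bezout
  obtain ⟨r, s, hbez⟩ : ∃ r s : ℤ, (g : ℤ) = (N * a) * r + c * s :=
    ⟨_, _, hg ▸ Int.gcd_eq_gcd_ab _ _⟩
  have hrs : r * x + s * z = 1 := by
    have h1 : (g : ℤ) * (r * x + s * z) = g * 1 := by
      linear_combination (-r) * hx - s * hz - hbez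
    exact mul_left_cancel₀ hg0' h1
  refine ⟨r, s, z, x, g, D, hrs, hD.symm, ?_, Nat.pos_of_ne_zero hg0, ?_, ?_, ?_⟩
  · by_contra hlt
    have hD1 : D = 0 ∨ D = 1 := by omega
    rcases hD1 with rfl | rfl
    · exact hN (by simpa using hD)
    · apply hc
      rw [hz, hD']
      exact ⟨z, by ring⟩
  · linear_combination -hbez
  · linear_combination (-z) * hx + x * hz
  · have h1 : (g : ℤ) * (-z * (N * b) + x * d) = g * D := by
      linear_combination (N : ℤ) * hdet - d * hx + (N : ℤ) * b * hz + hD'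
    exact mul_left_cancel₀ hg0' h1

theorem exists_triangular (N : ℕ) [NeZero N] (γ : SL(2, ℤ)) (hγ : γ ∉ Gamma0 N) :
    ∃ (δ : SL(2, ℤ)) (A D : ℕ) (B : ℝ) (hAD : (A : ℝ) * D ≠ 0), A * D = N ∧ 2 ≤ D ∧ 0 < A ∧
      mapGL ℝ δ * (heckeDiagMatrix N * mapGL ℝ γ) = upperTriangularGL A B D hAD := by
  have hN : N ≠ 0 := NeZero.ne N
  have hdet : γ 0 0 * γ 1 1 - γ 0 1 * γ 1 0 = 1 := by
    have := γ.det_coe
    rwa [Matrix.det_fin_two] at this
  have hc : ¬ (N : ℤ) ∣ γ 1 0 := by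
    intro h
    apply hγ
    rw [Gamma0_mem, ZMod.intCast_zmod_eq_zero_iff_dvd]
    exact h
  obtain ⟨r, s, z, x, A, D, hrs, hAD, hD, hA, h1, h2, h3⟩ :=
    exists_triangular_int N hN _ _ _ _ hdet hc
  let δ : SL(2, ℤ) := ⟨!![r, s; -z, x], by rw [Matrix.det_fin_two_of]; linarith⟩
  have hAD' : (A : ℝ) * D ≠ 0 := by
    have : (A : ℝ) * D = N := by exact_mod_cast hAD
    rw [this]; exact_mod_cast hN
  refine ⟨δ, A, D, r * (N * γ 0 1) + s * γ 1 1, hAD', hAD, hD, hA, ?_⟩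
  apply Matrix.GeneralLinearGroup.ext
  intro i j
  have e00 : ((mapGL ℝ δ : GL (Fin 2) ℝ) : Matrix (Fin 2) (Fin 2) ℝ) 0 0 = (r : ℝ) := by
    rw [mapGL_apply_entry]; rfl
  have e01 : ((mapGL ℝ δ : GL (Fin 2) ℝ) : Matrix (Fin 2) (Fin 2) ℝ) 0 1 = (s : ℝ) := by
    rw [mapGL_apply_entry]; rfl
  have e10 : ((mapGL ℝ δ : GL (Fin 2) ℝ) : Matrix (Fin 2) (Fin 2) ℝ) 1 0 = -(z : ℝ) := by
    rw [mapGL_apply_entry]; simp [δ]
  have e11 : ((mapGL ℝ δ : GL (Fin 2) ℝ) : Matrix (Fin 2) (Fin 2) ℝ) 1 1 = (x : ℝ) := by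
    rw [mapGL_apply_entry]; rfl
  have h1' : (r : ℝ) * (N * (γ 0 0 : ℤ)) + s * (γ 1 0 : ℤ) = A := by exact_mod_cast h1
  have h2' : -(z : ℝ) * (N * (γ 0 0 : ℤ)) + x * (γ 1 0 : ℤ) = 0 := by exact_mod_cast h2
  have h3' : -(z : ℝ) * (N * (γ 0 1 : ℤ)) + x * (γ 1 1 : ℤ) = D := by exact_mod_cast h3
  simp only [Matrix.GeneralLinearGroup.coe_mul, val_heckeDiagMatrix hN, val_upperTriangularGL]
  fin_cases i <;> fin_cases j <;>
    simp only [Matrix.mul_apply, Fin.sum_univ_two, Fin.zero_eta, Fin.mk_one, Fin.isValue,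
      mapGL_apply_entry γ, e00, e01, e10, e11, Matrix.of_apply, Matrix.cons_val',
      Matrix.cons_val_zero, Matrix.cons_val_one, Matrix.cons_val_fin_one]
  · linear_combination h1'
  · ring
  · linear_combination h2'
  · linear_combination h3'

theorem det_upperTriangularGL (a b d : ℝ) (had : a * d ≠ 0) :
    ((upperTriangularGL a b d had).det : ℝ) = a * d := by
  rw [Matrix.GeneralLinearGroup.val_det_apply, val_upperTriangularGL, Matrix.det_fin_two_of]
  ring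

theorem denom_upperTriangularGL (a b d : ℝ) (had : a * d ≠ 0) (τ : ℍ) :
    denom (upperTriangularGL a b d had) τ = d := by
  simp [denom, val_upperTriangularGL]

theorem slash_upperTriangularGL_apply (k : ℤ) (a b d : ℝ) (had : a * d ≠ 0) (hpos : 0 < a * d)
    (f : ℍ → ℂ) (τ : ℍ) :
    (f ∣[k] upperTriangularGL a b d had) τ =
      f (upperTriangularGL a b d had • τ) * ((a * d : ℝ) : ℂ) ^ (k - 1) * (d : ℂ) ^ (-k) := by
  have hσ : σ (upperTriangularGL a b d had) = .refl ℝ ℂ := by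
    rw [σ, if_pos (by rw [det_upperTriangularGL]; exact hpos)]
  rw [ModularForm.slash_apply, hσ, det_upperTriangularGL, denom_upperTriangularGL,
    abs_of_pos hpos]
  rfl

theorem im_upperTriangularGL_smul (a b d : ℝ) (had : a * d ≠ 0) (hpos : 0 < a * d) (τ : ℍ) :
    (upperTriangularGL a b d had • τ).im = a / d * τ.im := by
  have hd : d ≠ 0 := right_ne_zero_of_mul had
  rw [UpperHalfPlane.im_smul_eq_div_normSq, det_upperTriangularGL, denom_upperTriangularGL,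
    abs_of_pos hpos, Complex.normSq_ofReal]
  field_simp

theorem discriminant_slash_SL (δ : SL(2, ℤ)) :
    ModularForm.discriminant ∣[(12 : ℤ)] δ = ModularForm.discriminant :=
  SlashInvariantForm.slash_action_generators_SL2Z discriminant_S_invariant
    discriminant_T_invariant δ

/-- If `Δ(N·)` were invariant under `γ ∉ Γ₀(N)`, we would get a functional equation. -/
theorem exists_functional_equation (N : ℕ) [NeZero N] (γ : SL(2, ℤ)) (hγ : γ ∉ Gamma0 N)
    (heq : (fun τ : ℍ => ModularForm.discriminant (heckeDiagMatrix N • τ)) ∣[(12 : ℤ)] γ =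
      (fun τ : ℍ => ModularForm.discriminant (heckeDiagMatrix N • τ))) :
    ∃ (A D : ℕ) (B : ℝ) (hAD : (A : ℝ) * D ≠ 0), A * D = N ∧ 2 ≤ D ∧ 0 < A ∧
      ∀ τ : ℍ, ModularForm.discriminant (upperTriangularGL A B D hAD • τ) =
        (D : ℂ) ^ 12 * ModularForm.discriminant (heckeDiagMatrix N • τ) := by
  have hN : N ≠ 0 := NeZero.ne N
  have hN' : (N : ℂ) ≠ 0 := by exact_mod_cast hN
  obtain ⟨δ, A, D, B, hAD, hADN, hD, hA, hmat⟩ := exists_triangular N γ hγ
  refine ⟨A, D, B, hAD, hADN, hD, hA, fun τ => ?_⟩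
  set u : ℍ → ℂ := fun τ : ℍ => ModularForm.discriminant (heckeDiagMatrix N • τ) with hu
  have h1 : ModularForm.discriminant ∣[(12 : ℤ)] heckeDiagMatrix N = ((N : ℂ) ^ (11 : ℤ)) • u := by
    funext τ
    rw [slash_heckeDiagMatrix_apply 12 hN]
    norm_num [hu]
  have h2 : (ModularForm.discriminant ∣[(12 : ℤ)] heckeDiagMatrix N) ∣[(12 : ℤ)] γ =
      ((N : ℂ) ^ (11 : ℤ)) • u := by
    rw [h1, SL_smul_slash, heq]
  have h3 : (ModularForm.discriminant ∣[(12 : ℤ)] heckeDiagMatrix N) ∣[(12 : ℤ)] γ =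
      ModularForm.discriminant ∣[(12 : ℤ)] upperTriangularGL A B D hAD := by
    have h0 : ModularForm.discriminant ∣[(12 : ℤ)] (mapGL ℝ δ) = ModularForm.discriminant :=
      discriminant_slash_SL δ
    rw [← hmat, SlashAction.slash_mul, h0, SlashAction.slash_mul]
    rfl
  have hpos : (0 : ℝ) < (A : ℝ) * D := by positivity
  have h4 := congrFun (h3.symm.trans h2) τ
  rw [slash_upperTriangularGL_apply 12 _ _ _ hAD hpos] at h4
  have hADN' : ((A : ℝ) * D : ℝ) = N := by exact_mod_cast hADN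
  have hD' : (D : ℂ) ≠ 0 := by
    have : D ≠ 0 := by omega
    exact_mod_cast this
  rw [hADN'] at h4
  simp only [Pi.smul_apply, smul_eq_mul, hu] at h4
  norm_num at h4
  have h5 : (N : ℂ) ^ 11 ≠ 0 := pow_ne_zero _ hN'
  field_simp at h4
  linear_combination h4

theorem im_heckeDiagMatrix_smul (N : ℕ) (hN : N ≠ 0) (τ : ℍ) :
    (heckeDiagMatrix N • τ).im = N * τ.im := by
  have := congrArg Complex.im (coe_heckeDiagMatrix_smul hN τ)
  simpa using this

theorem exists_discriminant_lower :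
    ∃ C Y : ℝ, ∀ w : ℍ, Y ≤ w.im → Real.exp (-2 * π * w.im) ≤ C * ‖ModularForm.discriminant w‖ := by
  obtain ⟨C, hC⟩ := exp_isBigO_discriminant.bound
  rw [Filter.Eventually, atImInfty_mem] at hC
  obtain ⟨Y, hY⟩ := hC
  refine ⟨C, Y, fun w hw => ?_⟩
  have := hY w hw
  simpa [abs_of_pos (Real.exp_pos _)] using this

theorem exists_discriminant_upper :
    ∃ C Y : ℝ, ∀ w : ℍ, Y ≤ w.im → ‖ModularForm.discriminant w‖ ≤ C * Real.exp (-2 * π * w.im) := by
  obtain ⟨C, hC⟩ := (CuspFormClass.exp_decay_atImInfty (h := 1) CuspForm.discriminant one_pos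
    one_mem_strictPeriods_SL).bound
  rw [Filter.Eventually, atImInfty_mem] at hC
  obtain ⟨Y, hY⟩ := hC
  refine ⟨C, Y, fun w hw => ?_⟩
  have := hY w hw
  simpa [abs_of_pos (Real.exp_pos _)] using this

theorem dilFun_slash_ne (N : ℕ) [NeZero N] (γ : SL(2, ℤ)) (hγ : γ ∉ Gamma0 N) :
    (fun τ : ℍ => ModularForm.discriminant (ModularForm.heckeDiagMatrix N • τ)) ∣[(12 : ℤ)] γ ≠
      (fun τ : ℍ => ModularForm.discriminant (ModularForm.heckeDiagMatrix N • τ)) := by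
  intro heq
  have hN : N ≠ 0 := NeZero.ne N
  obtain ⟨A, D, B, hAD, hADN, hD, hA, hfe⟩ := exists_functional_equation N γ hγ heq
  obtain ⟨C1, Y1, h1⟩ := exists_discriminant_lower
  obtain ⟨C2, Y2, h2⟩ := exists_discriminant_upper
  have hpos : (0 : ℝ) < (A : ℝ) * D := by positivity
  have hA' : (0 : ℝ) < A := by exact_mod_cast hA
  have hD' : (2 : ℝ) ≤ D := by exact_mod_cast hD
  have hD0 : (0 : ℝ) < D := by linarith
  have hNR : (N : ℝ) = A * D := by exact_mod_cast hADN.symm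
  have hN0 : (0 : ℝ) < N := by rw [hNR]; exact hpos
  have hratio : (0 : ℝ) < A / D := by positivity
  -- the gap
  have hgap : (0 : ℝ) < N - A / D := by
    have : (A : ℝ) / D < A := div_lt_self hA' (by linarith)
    have h3 : (A : ℝ) ≤ N := by rw [hNR]; nlinarith
    linarith
  set κ : ℝ := 2 * π * (N - A / D) with hκ
  have hκ0 : 0 < κ := by positivity
  set C : ℝ := C1 * ((D : ℝ) ^ 12 * C2) with hC
  -- choose a large `y`
  obtain ⟨y, hy0, hy1, hy2, hy3⟩ : ∃ y : ℝ, 0 < y ∧ Y1 ≤ A / D * y ∧ Y2 ≤ N * y ∧ C < κ * y := by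
    refine ⟨max 1 (max (Y1 / (A / D)) (max (Y2 / N) (C / κ + 1))), by positivity, ?_, ?_, ?_⟩
    · rw [← div_le_iff₀' hratio]
      exact le_trans (le_max_left _ _) (le_max_right _ _)
    · rw [← div_le_iff₀' hN0]
      exact le_trans (le_trans (le_max_left _ _) (le_max_right _ _)) (le_max_right _ _)
    · rw [← div_lt_iff₀' hκ0]
      have : C / κ + 1 ≤ max 1 (max (Y1 / (A / D)) (max (Y2 / N) (C / κ + 1))) :=
        le_trans (le_trans (le_max_right _ _) (le_max_right _ _)) (le_max_right _ _)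
      linarith
  let τ : ℍ := ⟨⟨0, y⟩, hy0⟩
  have hτ : τ.im = y := rfl
  have e1 := h1 (upperTriangularGL A B D hAD • τ) (by
    rw [im_upperTriangularGL_smul _ _ _ hAD hpos, hτ]; exact hy1)
  have e2 := h2 (heckeDiagMatrix N • τ) (by
    rw [im_heckeDiagMatrix_smul N hN, hτ]; exact hy2)
  rw [im_upperTriangularGL_smul _ _ _ hAD hpos, hτ, hfe, norm_mul, norm_pow] at e1
  rw [im_heckeDiagMatrix_smul N hN, hτ] at e2
  have hC1 : 0 ≤ C1 := by
    by_contra hneg
    push Not at hneg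
    have : C1 * (‖(D : ℂ)‖ ^ 12 * ‖ModularForm.discriminant (heckeDiagMatrix N • τ)‖) ≤ 0 :=
      mul_nonpos_of_nonpos_of_nonneg hneg.le (by positivity)
    linarith [Real.exp_pos (-2 * π * (A / D * y))]
  have hDn : ‖(D : ℂ)‖ = D := by simp
  rw [hDn] at e1
  have e3 : Real.exp (-2 * π * (A / D * y)) ≤ C * Real.exp (-2 * π * (N * y)) := by
    calc Real.exp (-2 * π * (A / D * y))
        ≤ C1 * ((D : ℝ) ^ 12 * ‖ModularForm.discriminant (heckeDiagMatrix N • τ)‖) := e1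
      _ ≤ C1 * ((D : ℝ) ^ 12 * (C2 * Real.exp (-2 * π * (N * y)))) := by gcongr
      _ = C * Real.exp (-2 * π * (N * y)) := by rw [hC]; ring
  have e4 : Real.exp (κ * y) ≤ C := by
    have h5 : Real.exp (κ * y) = Real.exp (-2 * π * (A / D * y)) * Real.exp (2 * π * (N * y)) := by
      rw [← Real.exp_add]; congr 1; rw [hκ]; ring
    have h6 : Real.exp (-2 * π * (N * y)) * Real.exp (2 * π * (N * y)) = 1 := by
      rw [← Real.exp_add]; simp
    calc Real.exp (κ * y) = Real.exp (-2 * π * (A / D * y)) * Real.exp (2 * π * (N * y)) := h5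
      _ ≤ (C * Real.exp (-2 * π * (N * y))) * Real.exp (2 * π * (N * y)) := by gcongr
      _ = C := by rw [mul_assoc, h6, mul_one]
  have e5 : κ * y + 1 ≤ Real.exp (κ * y) := Real.add_one_le_exp _
  linarith

theorem coe_dil (N : ℕ) [NeZero N] :
    (dil N : ℍ → ℂ) = fun τ : ℍ => ModularForm.discriminant (ModularForm.heckeDiagMatrix N • τ) :=
  funext (dil_apply N)

theorem dil_slash_ne (N : ℕ) [NeZero N] (γ : SL(2, ℤ)) (hγ : γ ∉ Gamma0 N) :
    (dil N : ℍ → ℂ) ∣[(12 : ℤ)] γ ≠ (dil N : ℍ → ℂ) := by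
  rw [coe_dil]
  exact dilFun_slash_ne N γ hγ

/-- Translates of `dil N` by representatives of distinct cosets `Γ₀(N) γ` are distinct. -/
theorem dil_slash_ne_slash (N : ℕ) [NeZero N] (γ₁ γ₂ : SL(2, ℤ)) (h : γ₁ * γ₂⁻¹ ∉ Gamma0 N) :
    (dil N : ℍ → ℂ) ∣[(12 : ℤ)] γ₁ ≠ (dil N : ℍ → ℂ) ∣[(12 : ℤ)] γ₂ := by
  intro heq
  apply dil_slash_ne N _ h
  rw [SlashAction.slash_mul, heq, ← SlashAction.slash_mul, mul_inv_cancel, SlashAction.slash_one]

end Fermat.Agent.S23
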