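import Mathlib
import Fermat.Agent.S23.Basic

/-!
Bounded denominators: pure power series algebra for the S23 project.
-/

set_option autoImplicit false

namespace Fermat.Agent.S23

open PowerSeries

/-- `ℤ` is completely integrally closed in `ℚ`. -/
theorem rat_isInt_of_almost_integral (D : ℤ) (hD : D ≠ 0) (q : ℚ)
    (h : ∀ m : ℕ, ∃ z : ℤ, (D : ℚ) * q ^ m = z) : ∃ z : ℤ, q = z := by
  have hden : ∀ m : ℕ, (q.den : ℤ) ^ m ∣ D := by
    intro m
    obtain ⟨z, hz⟩ := h m
    have h1 : (D : ℚ) * (q.num : ℚ) ^ m = z * (q.den : ℚ) ^ m := by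
      have hq : q = (q.num : ℚ) / (q.den : ℚ) := (Rat.num_div_den q).symm
      have hd : (q.den : ℚ) ≠ 0 := by exact_mod_cast q.den_nz
      rw [hq, div_pow] at hz
      field_simp at hz
      rw [hz]; ring
    have h2 : D * q.num ^ m = z * (q.den : ℤ) ^ m := by exact_mod_cast h1
    have hcop : IsCoprime ((q.den : ℤ) ^ m) (q.num ^ m) := by
      apply IsCoprime.pow
      rw [Int.isCoprime_iff_gcd_eq_one]
      have := q.reduced
      rw [Nat.coprime_comm] at this
      simpa [Int.gcd, Nat.Coprime] using this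
    exact hcop.dvd_of_dvd_mul_right ⟨z, by rw [h2]; ring⟩
  have hone : q.den = 1 := by
    by_contra hne
    have h2 : 2 ≤ q.den := by
      have := q.den_pos
      omega
    have h3 := Int.le_of_dvd (Int.natAbs_pos.mpr hD |> fun h => by exact_mod_cast h)
      ((Int.dvd_natAbs).mpr (hden D.natAbs))
    have h4 : (D.natAbs : ℤ) < (q.den : ℤ) ^ D.natAbs := by
      have : D.natAbs < q.den ^ D.natAbs :=
        lt_of_lt_of_le (Nat.lt_two_pow_self) (Nat.pow_le_pow_left h2 _)
      exact_mod_cast this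
    omega
  exact ⟨q.num, ((Rat.den_eq_one_iff q).mp hone).symm⟩

theorem complex_isInt_of_almost_integral (D : ℤ) (hD : D ≠ 0) (c : ℂ)
    (h : ∀ m : ℕ, ∃ z : ℤ, (D : ℂ) * c ^ m = z) : ∃ z : ℤ, c = z := by
  have hD' : (D : ℂ) ≠ 0 := by exact_mod_cast hD
  obtain ⟨z1, hz1⟩ := h 1
  have hc : c = (((z1 : ℚ) / D : ℚ) : ℂ) := by
    push_cast
    rw [← hz1]
    field_simp
  obtain ⟨z, hz⟩ := rat_isInt_of_almost_integral D hD ((z1 : ℚ) / D) (by
    intro m
    obtain ⟨w, hw⟩ := h m
    refine ⟨w, ?_⟩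
    rw [hc] at hw
    exact_mod_cast hw)
  exact ⟨z, by rw [hc, hz]; simp⟩

theorem isIntSeries_of_X_pow_mul {s : PowerSeries ℂ} (m : ℕ) (h : IsIntSeries (X ^ m * s)) :
    IsIntSeries s := fun n => by
  obtain ⟨z, hz⟩ := h (n + m)
  exact ⟨z, by rw [← hz, PowerSeries.coeff_X_pow_mul]⟩

theorem isIntSeries_C_int (z : ℤ) : IsIntSeries (C (z : ℂ)) := fun n => by
  rw [PowerSeries.coeff_C]
  split_ifs
  · exact ⟨z, rfl⟩
  · exact ⟨0, by simp⟩

theorem constantCoeff_isInt_of_almost_integral (d g : PowerSeries ℂ) (hd : IsIntSeries d)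
    (hd0 : d ≠ 0) (h : ∀ m : ℕ, IsIntSeries (d * g ^ m)) :
    ∃ z : ℤ, constantCoeff g = z := by
  -- the first nonzero coefficient of `d`
  obtain ⟨t, ht, hmin⟩ : ∃ t, coeff t d ≠ 0 ∧ ∀ i < t, coeff i d = 0 := by
    have hex : ∃ t, coeff t d ≠ 0 := by
      by_contra hcon
      push Not at hcon
      exact hd0 (PowerSeries.ext (by simpa using hcon))
    classical
    exact ⟨Nat.find hex, Nat.find_spec hex, fun i hi => by
      simpa using Nat.find_min hex hi⟩
  obtain ⟨D, hDt⟩ := hd t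
  have hD : D ≠ 0 := by
    rintro rfl
    exact ht (by simpa using hDt)
  apply complex_isInt_of_almost_integral D hD
  intro m
  obtain ⟨z, hz⟩ := h m t
  refine ⟨z, ?_⟩
  rw [← hz, PowerSeries.coeff_mul, Finset.sum_eq_single (t, 0)]
  · simp [hDt]
  · rintro ⟨i, j⟩ hij hne
    rw [Finset.HasAntidiagonal.mem_antidiagonal] at hij
    have : i < t := by
      rcases Nat.eq_zero_or_pos j with rfl | hj
      · exact absurd (by simp at hij; simp [hij]) hne
      · simp only at hij; omega
    simp [hmin i this]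
  · intro hcon
    exact absurd (by simp) hcon

theorem isIntSeries_of_almost_integral (d g : PowerSeries ℂ) (hd : IsIntSeries d) (hd0 : d ≠ 0)
    (h : ∀ m : ℕ, IsIntSeries (d * g ^ m)) : IsIntSeries g := by
  intro n
  induction n generalizing g with
  | zero =>
    simpa using constantCoeff_isInt_of_almost_integral d g hd hd0 h
  | succ n ih =>
    obtain ⟨z, hz⟩ := constantCoeff_isInt_of_almost_integral d g hd hd0 h
    set g' : PowerSeries ℂ := PowerSeries.mk fun p => coeff (p + 1) g with hg'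
    have hg : g - C (z : ℂ) = X * g' := by
      rw [← hz]
      exact PowerSeries.sub_const_eq_X_mul_shift g
    have hcoeff : coeff (n + 1) g = coeff n g' := by simp [hg']
    rw [hcoeff]
    apply ih
    intro m
    apply isIntSeries_of_X_pow_mul m
    have : X ^ m * (d * g' ^ m) = d * (g + C ((-z : ℤ) : ℂ)) ^ m := by
      have h1 : g + C ((-z : ℤ) : ℂ) = X * g' := by
        rw [← hg]; simp [sub_eq_add_neg]
      rw [h1, mul_pow]; ring
    rw [this, add_pow, Finset.mul_sum]
    apply IsIntSeries.sum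
    intro j _
    have : d * (g ^ j * C ((-z : ℤ) : ℂ) ^ (m - j) * ((m.choose j : ℕ) : PowerSeries ℂ)) =
        (d * g ^ j) * (C ((-z : ℤ) : ℂ) ^ (m - j) * C (((m.choose j : ℕ) : ℤ) : ℂ)) := by
      have : ((m.choose j : ℕ) : PowerSeries ℂ) = C (((m.choose j : ℕ) : ℤ) : ℂ) := by
        simp
      rw [this]; ring
    rw [this]
    exact (h j).mul (((isIntSeries_C_int _).pow _).mul (isIntSeries_C_int _))

/-- Apply a `ℚ`-linear functional `ℂ → ℚ` to every coefficient. -/
noncomputable def coeffwise (π : ℂ →ₗ[ℚ] ℚ) (s : PowerSeries ℂ) : PowerSeries ℂ :=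
  PowerSeries.mk fun n => ((π (coeff n s) : ℚ) : ℂ)

@[simp] theorem coeff_coeffwise (π : ℂ →ₗ[ℚ] ℚ) (s : PowerSeries ℂ) (n : ℕ) :
    coeff n (coeffwise π s) = ((π (coeff n s) : ℚ) : ℂ) := by
  simp [coeffwise]

theorem coeffwise_add (π : ℂ →ₗ[ℚ] ℚ) (s t : PowerSeries ℂ) :
    coeffwise π (s + t) = coeffwise π s + coeffwise π t := by
  ext n; simp

theorem coeffwise_zero (π : ℂ →ₗ[ℚ] ℚ) : coeffwise π 0 = 0 := by
  ext n; simp

theorem coeffwise_sum (π : ℂ →ₗ[ℚ] ℚ) {ι : Type*} (S : Finset ι) (s : ι → PowerSeries ℂ) :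
    coeffwise π (∑ i ∈ S, s i) = ∑ i ∈ S, coeffwise π (s i) := by
  classical
  induction S using Finset.induction_on with
  | empty => simp [coeffwise_zero]
  | insert i T hi ih => rw [Finset.sum_insert hi, Finset.sum_insert hi, coeffwise_add, ih]

theorem map_mul_ratCast (π : ℂ →ₗ[ℚ] ℚ) (x : ℂ) (r : ℚ) : π (x * (r : ℂ)) = π x * r := by
  have : x * (r : ℂ) = r • x := by
    rw [Rat.smul_def]; ring
  rw [this, map_smul, smul_eq_mul, mul_comm]

theorem coeffwise_mul_rat (π : ℂ →ₗ[ℚ] ℚ) (x r : PowerSeries ℂ) (hr : IsRatSeries r) :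
    coeffwise π (x * r) = coeffwise π x * r := by
  ext n
  rw [coeff_coeffwise, PowerSeries.coeff_mul, PowerSeries.coeff_mul, map_sum]
  push_cast
  refine Finset.sum_congr rfl fun p _ => ?_
  obtain ⟨q, hq⟩ := hr p.2
  rw [hq, map_mul_ratCast, coeff_coeffwise]
  push_cast
  rfl

theorem coeffwise_smul_rat (π : ℂ →ₗ[ℚ] ℚ) (c : ℂ) (s : PowerSeries ℂ) (hs : IsRatSeries s) :
    coeffwise π (c • s) = ((π c : ℚ) : ℂ) • s := by
  ext n
  obtain ⟨q, hq⟩ := hs n
  rw [coeff_coeffwise, PowerSeries.coeff_smul, PowerSeries.coeff_smul, hq, smul_eq_mul,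
    map_mul_ratCast, smul_eq_mul]
  push_cast
  rfl

theorem bddDen_coeffwise_smul (π : ℂ →ₗ[ℚ] ℚ) {s : PowerSeries ℂ}
    (hs : s ∈ Submodule.span ℂ {s | BddDen s}) (c : ℂ) : BddDen (coeffwise π (c • s)) := by
  induction hs using Submodule.span_induction generalizing c with
  | mem x hx =>
    rw [coeffwise_smul_rat π c x (BddDen.isRatSeries hx)]
    exact BddDen.ratSmul hx _
  | zero => rw [smul_zero, coeffwise_zero]; exact bddDen_zero
  | add x y _ _ hx hy => rw [smul_add, coeffwise_add]; exact (hx c).add (hy c)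
  | smul a x _ hx => rw [smul_smul]; exact hx _

theorem bddDen_coeffwise (π : ℂ →ₗ[ℚ] ℚ) {s : PowerSeries ℂ}
    (hs : s ∈ Submodule.span ℂ {s | BddDen s}) : BddDen (coeffwise π s) := by
  simpa using bddDen_coeffwise_smul π hs 1

theorem exists_functional_ne_zero (x : ℂ) (hx : x ≠ 0) : ∃ π : ℂ →ₗ[ℚ] ℚ, π x ≠ 0 := by
  by_contra hcon
  push Not at hcon
  exact hx ((Module.forall_dual_apply_eq_zero_iff ℚ x).mp hcon)

theorem exists_functional_one : ∃ π : ℂ →ₗ[ℚ] ℚ, π 1 = 1 := by
  obtain ⟨π, hπ⟩ := exists_functional_ne_zero 1 one_ne_zero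
  exact ⟨(π 1)⁻¹ • π, by simp [hπ]⟩

theorem IsRatSeries.mul {s t : PowerSeries ℂ} (hs : IsRatSeries s) (ht : IsRatSeries t) :
    IsRatSeries (s * t) := fun n => by
  choose a ha using hs
  choose b hb using ht
  refine ⟨∑ p ∈ Finset.HasAntidiagonal.antidiagonal n, a p.1 * b p.2, ?_⟩
  rw [PowerSeries.coeff_mul]
  push_cast
  exact Finset.sum_congr rfl fun p _ => by rw [ha, hb]

theorem isRatSeries_one : IsRatSeries 1 := bddDen_one.isRatSeries

theorem IsRatSeries.pow {s : PowerSeries ℂ} (hs : IsRatSeries s) (m : ℕ) :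
    IsRatSeries (s ^ m) := by
  induction m with
  | zero => simpa using isRatSeries_one
  | succ m ih => rw [pow_succ]; exact ih.mul hs

theorem coeffwise_rat_of_one (π : ℂ →ₗ[ℚ] ℚ) (hπ : π 1 = 1) {s : PowerSeries ℂ}
    (hs : IsRatSeries s) : coeffwise π s = s := by
  have := coeffwise_smul_rat π 1 s hs
  simpa [hπ] using this

/-- common denominator of finitely many series with bounded denominators -/
theorem exists_common_den {ι : Type*} (S : Finset ι) (s : ι → PowerSeries ℂ)
    (hs : ∀ i ∈ S, BddDen (s i)) :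
    ∃ D : ℕ, D ≠ 0 ∧ ∀ i ∈ S, IsIntSeries ((D : ℂ) • s i) := by
  classical
  induction S using Finset.induction_on with
  | empty => exact ⟨1, one_ne_zero, by simp⟩
  | insert i T hi ih =>
    obtain ⟨D, hD, h⟩ := ih fun j hj => hs j (Finset.mem_insert_of_mem hj)
    obtain ⟨E, hE, h'⟩ := bddDen_iff.mp (hs i (Finset.mem_insert_self _ _))
    refine ⟨D * E, mul_ne_zero hD hE, fun j hj => ?_⟩
    rcases Finset.mem_insert.mp hj with rfl | hj
    · have : ((D * E : ℕ) : ℂ) • s j = ((D : ℤ) : ℂ) • ((E : ℂ) • s j) := by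
        rw [smul_smul]; push_cast; rfl
      rw [this]; exact h'.intSmul _
    · have : ((D * E : ℕ) : ℂ) • s j = ((E : ℤ) : ℂ) • ((D : ℂ) • s j) := by
        rw [smul_smul]; push_cast; rw [mul_comm]
      rw [this]; exact (h j hj).intSmul _

theorem bddDen_C_rat (r : ℚ) : BddDen (C (r : ℂ)) := by
  have : C (r : ℂ) = (r : ℂ) • (1 : PowerSeries ℂ) := by
    ext n; simp [PowerSeries.coeff_C, PowerSeries.coeff_one]
  rw [this]; exact bddDen_one.ratSmul r

/-- The `ℚ`-subalgebra of complex power series with rational coefficients of bounded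
denominator. -/
def bddSub : Subalgebra ℚ (PowerSeries ℂ) where
  carrier := {s | BddDen s}
  mul_mem' := fun ha hb => BddDen.mul ha hb
  add_mem' := fun ha hb => BddDen.add ha hb
  algebraMap_mem' := fun r => by
    have : algebraMap ℚ (PowerSeries ℂ) r = C (r : ℂ) := by
      rw [Algebra.algebraMap_eq_smul_one]
      ext n
      simp [PowerSeries.coeff_C, PowerSeries.coeff_one, Rat.smul_def]
    show BddDen _
    rw [this]
    exact bddDen_C_rat r

theorem mem_bddSub {s : PowerSeries ℂ} : s ∈ bddSub ↔ BddDen s := Iff.rfl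

/-- The core statement with all data of bounded denominators. -/
theorem bddDen_of_bdd (n : ℕ) (f P Q : PowerSeries ℂ) (a : ℕ → PowerSeries ℂ)
    (hP : BddDen P) (hP0 : P ≠ 0) (hQ : BddDen Q) (hPQ : P * f = Q)
    (ha : ∀ i, BddDen (a i)) (h : f ^ n + ∑ i ∈ Finset.range n, a i * f ^ i = 0) :
    BddDen f := by
  rcases Nat.eq_zero_or_pos n with rfl | hn
  · simp at h
  obtain ⟨D, hD, hDs⟩ := exists_common_den (Finset.range (n + 2))
    (fun i => if i = n then P else if i = n + 1 then Q else a i) (by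
      intro i _
      split_ifs
      · exact hP
      · exact hQ
      · exact ha i)
  have hDC : (D : ℂ) ≠ 0 := by exact_mod_cast hD
  have hP' : IsIntSeries ((D : ℂ) • P) := by
    simpa using hDs n (by simp)
  have hQ' : IsIntSeries ((D : ℂ) • Q) := by
    simpa using hDs (n + 1) (by simp)
  have ha' : ∀ i < n, IsIntSeries ((D : ℂ) • a i) := by
    intro i hi
    have := hDs i (by simp; omega)
    have h1 : i ≠ n := by omega
    have h2 : i ≠ n + 1 := by omega
    simpa [h1, h2] using this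
  set g : PowerSeries ℂ := (D : ℂ) • f with hg
  set P2 : PowerSeries ℂ := (D : ℂ) • P with hP2
  have hP2g : IsIntSeries (P2 * g) := by
    have : P2 * g = ((D : ℤ) : ℂ) • ((D : ℂ) • Q) := by
      rw [hP2, hg, smul_mul_smul_comm, hPQ, smul_smul]; simp
    rw [this]; exact hQ'.intSmul _
  have hP20 : P2 ≠ 0 := smul_ne_zero hDC hP0
  let b : ℕ → PowerSeries ℂ := fun i => (((D : ℤ) ^ (n - i - 1) : ℤ) : ℂ) • ((D : ℂ) • a i)
  have hb : ∀ i < n, IsIntSeries (b i) := fun i hi => (ha' i hi).intSmul _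
  have hrel : g ^ n = - ∑ i ∈ Finset.range n, b i * g ^ i := by
    have h1 : g ^ n + ∑ i ∈ Finset.range n, b i * g ^ i =
        ((D : ℂ) ^ n) • (f ^ n + ∑ i ∈ Finset.range n, a i * f ^ i) := by
      rw [smul_add, Finset.smul_sum, hg, smul_pow]
      congr 1
      refine Finset.sum_congr rfl fun i hi => ?_
      have hi' : i < n := Finset.mem_range.mp hi
      simp only [b]
      rw [smul_pow, smul_smul, smul_mul_smul_comm]
      congr 1
      push_cast
      rw [← pow_succ, ← pow_add]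
      congr 1
      omega
    rw [h, smul_zero] at h1
    exact eq_neg_of_add_eq_zero_left h1
  have key : ∀ m : ℕ, IsIntSeries (P2 ^ (n - 1) * g ^ m) := by
    intro m
    induction m using Nat.strong_induction_on with
    | _ m ih =>
      by_cases hm : m ≤ n - 1
      · have : P2 ^ (n - 1) * g ^ m = P2 ^ (n - 1 - m) * (P2 * g) ^ m := by
          rw [mul_pow, ← mul_assoc, ← pow_add]
          congr 2
          omega
        rw [this]
        exact (hP'.pow _).mul (hP2g.pow _)
      · have hmn : m = (m - n) + n := by omega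
        have : P2 ^ (n - 1) * g ^ m =
            - ∑ i ∈ Finset.range n, b i * (P2 ^ (n - 1) * g ^ (i + (m - n))) := by
          conv_lhs => rw [hmn, pow_add, hrel]
          rw [mul_neg, mul_neg, Finset.mul_sum, Finset.mul_sum]
          congr 1
          refine Finset.sum_congr rfl fun i _ => ?_
          rw [pow_add]; ring
        rw [this]
        apply IsIntSeries.neg
        apply IsIntSeries.sum
        intro i hi
        have hi' : i < n := Finset.mem_range.mp hi
        exact (hb i hi').mul (ih _ (by omega))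
  have hgint : IsIntSeries g :=
    isIntSeries_of_almost_integral (P2 ^ (n - 1)) g (hP'.pow _) (pow_ne_zero _ hP20) key
  exact bddDen_iff.mpr ⟨D, hD, hgint⟩

theorem bddDen_of_rat (n : ℕ) (f P Q : PowerSeries ℂ) (a : ℕ → PowerSeries ℂ)
    (hf : IsRatSeries f) (hP : P ∈ Submodule.span ℂ {s | BddDen s}) (hP0 : P ≠ 0)
    (hQ : Q ∈ Submodule.span ℂ {s | BddDen s}) (hPQ : P * f = Q)
    (ha : ∀ i, a i ∈ Submodule.span ℂ {s | BddDen s})
    (h : f ^ n + ∑ i ∈ Finset.range n, a i * f ^ i = 0) : BddDen f := by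
  obtain ⟨m0, hm0⟩ : ∃ m0, coeff m0 P ≠ 0 := by
    by_contra hcon
    push Not at hcon
    exact hP0 (PowerSeries.ext (by simpa using hcon))
  obtain ⟨π, hπ⟩ := exists_functional_ne_zero _ hm0
  obtain ⟨π', hπ'⟩ := exists_functional_one
  refine bddDen_of_bdd n f (coeffwise π P) (coeffwise π Q) (fun i => coeffwise π' (a i))
    (bddDen_coeffwise π hP) ?_ (bddDen_coeffwise π hQ) ?_ (fun i => bddDen_coeffwise π' (ha i)) ?_
  · intro h0
    have := congrArg (coeff m0) h0
    rw [coeff_coeffwise] at this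
    apply hπ
    simpa using this
  · rw [← coeffwise_mul_rat π P f hf, hPQ]
  · have h1 := congrArg (coeffwise π') h
    rw [coeffwise_add, coeffwise_zero, coeffwise_sum, coeffwise_rat_of_one π' hπ' (hf.pow n)] at h1
    rw [← h1]
    congr 1
    exact Finset.sum_congr rfl fun i _ => (coeffwise_mul_rat π' (a i) (f ^ i) (hf.pow i)).symm

/-- Variant of `bddDen_of_rat` in terms of `bddSpan`, with hypotheses on `a i` only for `i < n`. -/
theorem bddDen_of_rat' (n : ℕ) (f P Q : PowerSeries ℂ) (a : ℕ → PowerSeries ℂ)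
    (hf : IsRatSeries f) (hP : P ∈ bddSpan) (hP0 : P ≠ 0) (hQ : Q ∈ bddSpan) (hPQ : P * f = Q)
    (ha : ∀ i < n, a i ∈ bddSpan)
    (h : f ^ n + ∑ i ∈ Finset.range n, a i * f ^ i = 0) : BddDen f := by
  refine bddDen_of_rat n f P Q (fun i => if i < n then a i else 0) hf hP hP0 hQ hPQ ?_ ?_
  · intro i
    split_ifs with hi
    · exact ha i hi
    · exact Submodule.zero_mem _
  · rw [← h]
    congr 1
    refine Finset.sum_congr rfl fun i hi => ?_
    rw [if_pos (Finset.mem_range.mp hi)]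

end Fermat.Agent.S23
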