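import Mathlib
import Fermat.Agent.S23.Basic
import Fermat.Agent.S23.Dilate
import Fermat.Prelude.Thm_ModularForm_sturm_bound_of_isArithmetic
import Fermat.Prelude.Thm_CongruenceSubgroup_one_mem_strictPeriods_Gamma0
import Fermat.Prelude.Def_ModularForm_HeckeOperator

set_option autoImplicit false

namespace Fermat.Agent.S23

open UpperHalfPlane ModularForm CongruenceSubgroup Filter Topology
open scoped MatrixGroups Manifold

local notation "Δ" => ModularForm.discriminant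

/-- Translating the relation by an element of `SL(2, ℤ)`. -/
lemma cert_translate (u : ℍ → ℂ) {K' : ℤ} {n : ℕ} (C : Fin n → ModularForm 𝒮ℒ K')
    (h : ∀ τ, ∑ j : Fin n, C j τ * u τ ^ (j : ℕ) * Δ τ ^ (n - 1 - (j : ℕ)) = 0)
    (g : SL(2, ℤ)) (τ : ℍ) :
    ∑ j : Fin n, C j τ * ((u ∣[(12 : ℤ)] g) τ) ^ (j : ℕ) * Δ τ ^ (n - 1 - (j : ℕ)) = 0 := by
  have h1 := h (g • τ)
  set d : ℂ := denom g τ with hd
  have hd0 : d ≠ 0 := denom_ne_zero _ _
  have hC : ∀ j, C j (g • τ) = d ^ K' * C j τ := fun j =>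
    SlashInvariantForm.slash_action_eqn'' (Γ := 𝒮ℒ) (C j) (γ := (g : GL (Fin 2) ℝ)) ⟨g, rfl⟩ τ
  have hΔ : Δ (g • τ) = d ^ (12 : ℤ) * Δ τ :=
    SlashInvariantForm.slash_action_eqn'' (Γ := 𝒮ℒ) CuspForm.discriminant
      (γ := (g : GL (Fin 2) ℝ)) ⟨g, rfl⟩ τ
  have hu : u (g • τ) = d ^ (12 : ℤ) * (u ∣[(12 : ℤ)] g) τ := by
    rw [SL_slash_apply, ← hd, mul_comm, mul_assoc, ← zpow_add₀ hd0]
    simp
  have key : ∀ j : Fin n, C j (g • τ) * u (g • τ) ^ (j : ℕ) * Δ (g • τ) ^ (n - 1 - (j : ℕ)) =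
      (d ^ K' * (d ^ (12 : ℤ)) ^ (n - 1)) *
        (C j τ * ((u ∣[(12 : ℤ)] g) τ) ^ (j : ℕ) * Δ τ ^ (n - 1 - (j : ℕ))) := by
    intro j
    have hj : (j : ℕ) + (n - 1 - (j : ℕ)) = n - 1 := by have := j.2; omega
    rw [hC, hΔ, hu, mul_pow, mul_pow, ← hj, pow_add]
    simp only [hj]
    ring
  simp only [key, ← Finset.mul_sum] at h1
  exact (mul_eq_zero.mp h1).resolve_left
    (mul_ne_zero (zpow_ne_zero _ hd0) (pow_ne_zero _ (zpow_ne_zero _ hd0)))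

section indep

variable {𝒢 : Subgroup (GL (Fin 2) ℝ)}

open SlashInvariantForm in
/-- The translates of `u` indexed by the cosets are pairwise distinct. -/
lemma cert_quotientFunc_injective (u : ModularForm 𝒢 12)
    (hu : ∀ γ : SL(2, ℤ), (γ : GL (Fin 2) ℝ) ∉ 𝒢 → (⇑u) ∣[(12 : ℤ)] γ ≠ ⇑u) :
    Function.Injective (quotientFunc (ℋ := 𝒮ℒ) u) := by
  intro q q' hqq
  induction q using Quotient.inductionOn with
  | h r =>
  induction q' using Quotient.inductionOn with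
  | h r' =>
  rw [quotientFunc_mk, quotientFunc_mk] at hqq
  rw [Quotient.eq, QuotientGroup.leftRel_apply]
  by_contra hmem
  obtain ⟨r, g, rfl⟩ := r
  obtain ⟨r', g', rfl⟩ := r'
  have h1 : (((g⁻¹ * g' : SL(2, ℤ)) : GL (Fin 2) ℝ)) ∉ 𝒢 := by
    intro hm
    apply hmem
    rw [Subgroup.mem_subgroupOf]
    have e : (((g⁻¹ * g' : SL(2, ℤ)) : GL (Fin 2) ℝ)) =
      ((Matrix.SpecialLinearGroup.mapGL ℝ) g)⁻¹ * (Matrix.SpecialLinearGroup.mapGL ℝ) g' := by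
      rw [← map_inv, ← map_mul]; rfl
    rw [e] at hm
    simpa using hm
  apply hu _ h1
  have h2 := congrArg (fun F => F ∣[(12 : ℤ)] (Matrix.SpecialLinearGroup.mapGL ℝ g')) hqq
  simp only [← SlashAction.slash_mul] at h2
  rw [SL_slash]
  have e : (((g⁻¹ * g' : SL(2, ℤ)) : GL (Fin 2) ℝ)) =
      ((Matrix.SpecialLinearGroup.mapGL ℝ) g)⁻¹ * (Matrix.SpecialLinearGroup.mapGL ℝ) g' := by
    rw [← map_inv, ← map_mul]; rfl
  rw [e]
  simpa using h2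

open SlashInvariantForm in
lemma cert_mdiff_quotientFunc (u : ModularForm 𝒢 12) (q : 𝒮ℒ ⧸ 𝒢.subgroupOf 𝒮ℒ) :
    MDiff (quotientFunc (ℋ := 𝒮ℒ) u q) := by
  induction q using Quotient.inductionOn with
  | h r => exact (ModularForm.translate u r.val⁻¹).holo'

open SlashInvariantForm Polynomial in
/-- Powers of `u` are linearly independent over level one forms. -/
lemma cert_indep [𝒢.IsArithmetic] (u : ModularForm 𝒢 12)
    (hu : ∀ γ : SL(2, ℤ), (γ : GL (Fin 2) ℝ) ∉ 𝒢 → (⇑u) ∣[(12 : ℤ)] γ ≠ ⇑u)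
    {K' : ℤ} {n : ℕ} (hn : n = 𝒢.relIndex 𝒮ℒ) (C : Fin n → ModularForm 𝒮ℒ K')
    (h : ∀ τ, ∑ j : Fin n, C j τ * u τ ^ (j : ℕ) * Δ τ ^ (n - 1 - (j : ℕ)) = 0) (j : Fin n) :
    C j = 0 := by
  classical
  have : Finite (𝒮ℒ ⧸ 𝒢.subgroupOf 𝒮ℒ) := Subgroup.finite_quotient_of_finiteIndex
  let := Fintype.ofFinite (𝒮ℒ ⧸ 𝒢.subgroupOf 𝒮ℒ)
  set F := quotientFunc (ℋ := 𝒮ℒ) u with hFdef
  have hcard : Fintype.card (𝒮ℒ ⧸ 𝒢.subgroupOf 𝒮ℒ) = n := by
    rw [hn, ← Nat.card_eq_fintype_card]; rfl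
  have hF : ∀ q τ, ∑ j : Fin n, C j τ * (F q τ) ^ (j : ℕ) * Δ τ ^ (n - 1 - (j : ℕ)) = 0 := by
    intro q τ
    induction q using Quotient.inductionOn with
    | h r =>
    obtain ⟨r, g, rfl⟩ := r
    have := cert_translate u C h g⁻¹ τ
    rw [SL_slash] at this
    have e : ((g⁻¹ : SL(2, ℤ)) : GL (Fin 2) ℝ) = ((Matrix.SpecialLinearGroup.mapGL ℝ) g)⁻¹ := by
      rw [← map_inv]; rfl
    rw [e] at this
    exact this
  set D : ℍ → ℂ := ∏ p ∈ (Finset.univ : Finset ((𝒮ℒ ⧸ 𝒢.subgroupOf 𝒮ℒ) ×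
    (𝒮ℒ ⧸ 𝒢.subgroupOf 𝒮ℒ))).filter (fun p => p.1 ≠ p.2), (F p.1 - F p.2) with hD
  have hDmd : ∀ p ∈ (Finset.univ : Finset ((𝒮ℒ ⧸ 𝒢.subgroupOf 𝒮ℒ) ×
      (𝒮ℒ ⧸ 𝒢.subgroupOf 𝒮ℒ))).filter (fun p => p.1 ≠ p.2), MDiff (F p.1 - F p.2) :=
    fun p _ => (cert_mdiff_quotientFunc u p.1).sub (cert_mdiff_quotientFunc u p.2)
  have hD0 : D ≠ 0 := by
    intro h0
    obtain ⟨p, hp, hp0⟩ := (UpperHalfPlane.prod_eq_zero_iff hDmd).mp h0
    exact (Finset.mem_filter.mp hp).2 (cert_quotientFunc_injective u hu (sub_eq_zero.mp hp0))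
  have key : ∀ τ, D τ ≠ 0 → C j τ = 0 := by
    intro τ hτ
    have hinj : Function.Injective (fun q => F q τ) := by
      intro q q' hqq
      by_contra hne
      apply hτ
      rw [hD, Finset.prod_apply]
      exact Finset.prod_eq_zero (i := (q, q')) (by simpa using hne) (by simpa [sub_eq_zero] using hqq)
    set P : ℂ[X] := ∑ j : Fin n, Polynomial.C (C j τ * Δ τ ^ (n - 1 - (j : ℕ))) * X ^ (j : ℕ) with hP
    have hdeg : P.natDegree < Fintype.card (𝒮ℒ ⧸ 𝒢.subgroupOf 𝒮ℒ) := by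
      rw [hcard]
      have hnpos : 0 < n := j.pos
      refine lt_of_le_of_lt (Polynomial.natDegree_sum_le_of_forall_le (n := n - 1) _ _ ?_) (by omega)
      intro i _
      refine (Polynomial.natDegree_C_mul_X_pow_le _ _).trans ?_
      have := i.2
      omega
    have heval : ∀ q, P.eval (F q τ) = 0 := by
      intro q
      rw [hP, Polynomial.eval_finsetSum]
      rw [← hF q τ]
      refine Finset.sum_congr rfl fun i _ => ?_
      simp only [eval_mul, eval_C, eval_pow, eval_X]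
      ring
    have hP0 := Polynomial.eq_zero_of_natDegree_lt_card_of_eval_eq_zero P hinj heval hdeg
    have hcoeff : P.coeff (j : ℕ) = C j τ * Δ τ ^ (n - 1 - (j : ℕ)) := by
      rw [hP, Polynomial.finsetSum_coeff]
      rw [Finset.sum_eq_single j]
      · rw [Polynomial.coeff_C_mul_X_pow, if_pos rfl]
      · intro i _ hij
        rw [Polynomial.coeff_C_mul_X_pow, if_neg]
        exact fun hh => hij (Fin.ext hh.symm)
      · simp
    rw [hP0, Polynomial.coeff_zero] at hcoeff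
    exact (mul_eq_zero.mp hcoeff.symm).resolve_right (pow_ne_zero _ (discriminant_ne_zero τ))
  have hmul : (⇑(C j)) * D = 0 := by
    funext τ
    by_cases hτ : D τ = 0
    · simp [hτ]
    · simp [key τ hτ]
  have hDmd' : MDiff D := by
    rw [hD]
    exact MDifferentiable.prod hDmd
  rcases (UpperHalfPlane.mul_eq_zero_iff (C j).holo' hDmd').mp hmul with h0 | h0
  · exact DFunLike.coe_injective h0
  · exact absurd h0 hD0

end indep

section count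

variable {𝒢 : Subgroup (GL (Fin 2) ℝ)}

/-- Restriction of a level one form to a subgroup. -/
noncomputable def certRes (h𝒢 : 𝒢 ≤ 𝒮ℒ) {K : ℤ} (g : ModularForm 𝒮ℒ K) : ModularForm 𝒢 K where
  toFun := g
  slash_action_eq' γ hγ := g.slash_action_eq' γ (h𝒢 hγ)
  holo' := g.holo'
  bdd_at_cusps' hc := g.bdd_at_cusps' (hc.mono h𝒢)

@[simp] lemma certRes_apply (h𝒢 : 𝒢 ≤ 𝒮ℒ) {K : ℤ} (g : ModularForm 𝒮ℒ K) (τ : ℍ) :
    certRes h𝒢 g τ = g τ := rfl

/-- The truncated `q`-expansion map. -/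
noncomputable def certTrunc [𝒢.HasDetOne] (h1 : (1 : ℝ) ∈ 𝒢.strictPeriods) (w : ℤ) (B : ℕ) :
    ModularForm 𝒢 w →ₗ[ℂ] (Fin (B + 1) → ℂ) where
  toFun g i := (qExpansion 1 g).coeff (i : ℕ)
  map_add' g g' := by
    funext i
    simp only [FunLike.coe_add, Pi.add_apply]
    rw [ModularForm.qExpansion_add one_pos h1 g g', map_add]
  map_smul' c g := by
    funext i
    simp only [FunLike.coe_smul, Pi.smul_apply, RingHom.id_apply]
    rw [ModularForm.qExpansion_smul one_pos h1 c g, PowerSeries.coeff_smul]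

lemma certTrunc_injective [𝒢.IsArithmetic] [𝒢.HasDetOne] (h1 : (1 : ℝ) ∈ 𝒢.strictPeriods)
    (w : ℤ) : Function.Injective
      (certTrunc h1 w ((w * 𝒢.relIndex 𝒮ℒ).toNat / 12)) := by
  rw [injective_iff_map_eq_zero]
  intro g hg
  apply ModularForm.sturm_bound_of_isArithmetic h1
  refine lt_of_lt_of_le ?_ (PowerSeries.nat_le_order _ ((w * 𝒢.relIndex 𝒮ℒ).toNat / 12 + 1) ?_)
  · exact_mod_cast Nat.lt_succ_self _
  · intro i hi
    exact congrFun hg ⟨i, hi⟩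

lemma cert_finrank_le [𝒢.IsArithmetic] [𝒢.HasDetOne] (h1 : (1 : ℝ) ∈ 𝒢.strictPeriods)
    (w : ℤ) : FiniteDimensional ℂ (ModularForm 𝒢 w) ∧
      Module.finrank ℂ (ModularForm 𝒢 w) ≤ (w * 𝒢.relIndex 𝒮ℒ).toNat / 12 + 1 := by
  have hinj := certTrunc_injective h1 w
  refine ⟨FiniteDimensional.of_injective _ hinj, ?_⟩
  have := LinearMap.finrank_le_finrank_of_injective hinj
  simpa using this

/-- The discriminant as a level one modular form. -/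
noncomputable def certDelta : ModularForm 𝒮ℒ 12 :=
  ModularFormClass.modularForm CuspForm.discriminant

@[simp] lemma certDelta_apply (τ : ℍ) : certDelta τ = Δ τ := rfl

/-- The modular form `P f - ∑ C_j u^j Δ^(n-1-j)`. -/
noncomputable def certH [𝒢.HasDetOne] (h𝒢 : 𝒢 ≤ 𝒮ℒ) {k K K' : ℤ} {n : ℕ}
    (hK : K + k = K' + 12 * ((n : ℤ) - 1)) (f : ModularForm 𝒢 k) (u : ModularForm 𝒢 12)
    (x : ModularForm 𝒮ℒ K × (Fin n → ModularForm 𝒮ℒ K')) : ModularForm 𝒢 (K + k) :=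
  (certRes h𝒢 x.1).mul f - ∑ j : Fin n,
    mcast (by have := j.2; omega)
      (((certRes h𝒢 (x.2 j)).mul (u.pow (j : ℕ))).mul ((certRes h𝒢 certDelta).pow (n - 1 - (j : ℕ))))

lemma certH_apply [𝒢.HasDetOne] (h𝒢 : 𝒢 ≤ 𝒮ℒ) {k K K' : ℤ} {n : ℕ}
    (hK : K + k = K' + 12 * ((n : ℤ) - 1)) (f : ModularForm 𝒢 k) (u : ModularForm 𝒢 12)
    (x : ModularForm 𝒮ℒ K × (Fin n → ModularForm 𝒮ℒ K')) (τ : ℍ) :
    certH h𝒢 hK f u x τ = x.1 τ * f τ -
      ∑ j : Fin n, x.2 j τ * u τ ^ (j : ℕ) * Δ τ ^ (n - 1 - (j : ℕ)) := by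
  simp [certH, ModularForm.coe_mul, ModularForm.coe_pow, ModularForm.coe_mcast]

/-- `certH` as a linear map. -/
noncomputable def certLin [𝒢.HasDetOne] (h𝒢 : 𝒢 ≤ 𝒮ℒ) {k K K' : ℤ} {n : ℕ}
    (hK : K + k = K' + 12 * ((n : ℤ) - 1)) (f : ModularForm 𝒢 k) (u : ModularForm 𝒢 12) :
    (ModularForm 𝒮ℒ K × (Fin n → ModularForm 𝒮ℒ K')) →ₗ[ℂ] ModularForm 𝒢 (K + k) where
  toFun := certH h𝒢 hK f u
  map_add' x y := by
    ext τ
    simp only [certH_apply, add_apply, Prod.fst_add, Prod.snd_add, Pi.add_apply]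
    rw [add_mul, sub_add_sub_comm, ← Finset.sum_add_distrib]
    congr 1
    exact Finset.sum_congr rfl fun j _ => by ring
  map_smul' c x := by
    ext τ
    simp only [certH_apply, smul_apply, Prod.smul_fst, Prod.smul_snd, Pi.smul_apply,
      RingHom.id_apply, smul_eq_mul]
    rw [mul_sub, Finset.mul_sum, mul_assoc]
    congr 1
    exact Finset.sum_congr rfl fun j _ => by ring

lemma cert_finrank_levelOne_ge (Kn : ℕ) (hK : Even Kn) :
    Kn / 12 ≤ Module.finrank ℂ (ModularForm 𝒮ℒ (Kn : ℤ)) := by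
  have h := ModularForm.dimension_level_one Kn hK
  rw [Module.finrank_eq_of_rank_eq h]
  split_ifs <;> omega

lemma cert_finrank_levelOne_twelve (m : ℕ) :
    Module.finrank ℂ (ModularForm 𝒮ℒ ((12 * m : ℕ) : ℤ)) = m + 1 := by
  have h := ModularForm.dimension_level_one (12 * m) ⟨6 * m, by ring⟩
  rw [Module.finrank_eq_of_rank_eq h, if_neg]
  · omega
  · intro h2
    have : (12 * m) % 12 = 2 % 12 := h2
    omega

theorem cert_general [𝒢.IsArithmetic] [𝒢.HasDetOne] (h𝒢 : 𝒢 ≤ 𝒮ℒ)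
    (h1 : (1 : ℝ) ∈ 𝒢.strictPeriods) {k : ℤ} (hk : Even k) (f : ModularForm 𝒢 k)
    (u : ModularForm 𝒢 12)
    (hu : ∀ γ : SL(2, ℤ), (γ : GL (Fin 2) ℝ) ∉ 𝒢 → (⇑u) ∣[(12 : ℤ)] γ ≠ ⇑u) :
    ∃ (n : ℕ) (K K' : ℤ) (P : ModularForm 𝒮ℒ K) (C : Fin n → ModularForm 𝒮ℒ K'),
      P ≠ 0 ∧ K + k = K' + 12 * ((n : ℤ) - 1) ∧ 0 < n ∧
      ∀ τ, P τ * f τ = ∑ j : Fin n, C j τ * u τ ^ (j : ℕ) * Δ τ ^ (n - 1 - (j : ℕ)) := by
  obtain ⟨n', hn'⟩ : ∃ n', 𝒢.relIndex 𝒮ℒ = n' + 1 :=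
    Nat.exists_eq_succ_of_ne_zero 𝒢.relIndex_ne_zero
  set m : ℕ := n' ^ 2 + 1 + k.natAbs with hm
  set Kn : ℕ := (12 * (m : ℤ) + 12 * (n' : ℤ) - k).toNat with hKn
  have hKn' : (Kn : ℤ) = 12 * (m : ℤ) + 12 * (n' : ℤ) - k := by
    rw [hKn, Int.toNat_of_nonneg]
    have : k ≤ k.natAbs := Int.le_natAbs
    have h2 : (m : ℤ) = (n' : ℤ) ^ 2 + 1 + k.natAbs := by rw [hm]; push_cast; ring
    nlinarith [sq_nonneg (n' : ℤ)]
  have hKeven : Even Kn := by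
    rw [← Int.even_coe_nat, hKn']
    refine Even.sub (Even.add ?_ ?_) hk
    · exact ⟨6 * m, by ring⟩
    · exact ⟨6 * n', by ring⟩
  have hKbig : n' ^ 2 < Kn / 12 := by
    have : 12 * (n' ^ 2 + 1) ≤ Kn := by
      have h3 : k ≤ k.natAbs := Int.le_natAbs
      have h2 : (m : ℤ) = (n' : ℤ) ^ 2 + 1 + k.natAbs := by rw [hm]; push_cast; ring
      have : (12 * ((n' : ℤ) ^ 2 + 1)) ≤ (Kn : ℤ) := by
        rw [hKn']; nlinarith
      exact_mod_cast this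
    omega
  have hK : (Kn : ℤ) + k = ((12 * m : ℕ) : ℤ) + 12 * (((n' + 1 : ℕ) : ℤ) - 1) := by
    rw [hKn']; push_cast; ring
  obtain ⟨hfd, hle⟩ := cert_finrank_le h1 ((Kn : ℤ) + k)
  have hB : (((Kn : ℤ) + k) * 𝒢.relIndex 𝒮ℒ).toNat / 12 = (m + n') * (n' + 1) := by
    have : ((Kn : ℤ) + k) * 𝒢.relIndex 𝒮ℒ = ((12 * ((m + n') * (n' + 1)) : ℕ) : ℤ) := by
      rw [hn', hKn']; push_cast; ring
    rw [this, Int.toNat_natCast, Nat.mul_div_cancel_left _ (by norm_num)]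
  rw [hB] at hle
  have hlt : Module.finrank ℂ (ModularForm 𝒢 ((Kn : ℤ) + k)) <
      Module.finrank ℂ (ModularForm 𝒮ℒ (Kn : ℤ) × (Fin (n' + 1) → ModularForm 𝒮ℒ ((12 * m : ℕ) : ℤ))) := by
    rw [Module.finrank_prod, Module.finrank_pi_fintype]
    simp only [cert_finrank_levelOne_twelve, Finset.sum_const, Finset.card_univ, Fintype.card_fin,
      smul_eq_mul]
    have := cert_finrank_levelOne_ge Kn hKeven
    nlinarith
  have hker := LinearMap.ker_ne_bot_of_finrank_lt (f := certLin h𝒢 hK f u) hlt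
  obtain ⟨x, hx, hx0⟩ := Submodule.exists_mem_ne_zero_of_ne_bot hker
  have hrel : ∀ τ, x.1 τ * f τ =
      ∑ j : Fin (n' + 1), x.2 j τ * u τ ^ (j : ℕ) * Δ τ ^ (n' + 1 - 1 - (j : ℕ)) := by
    intro τ
    have h0 : certH h𝒢 hK f u x τ = 0 := by
      have : certH h𝒢 hK f u x = 0 := hx
      rw [this]; rfl
    rw [certH_apply] at h0
    exact sub_eq_zero.mp h0
  refine ⟨n' + 1, Kn, ((12 * m : ℕ) : ℤ), x.1, x.2, ?_, hK, Nat.succ_pos _, hrel⟩
  intro hP0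
  apply hx0
  have hC : ∀ j, x.2 j = 0 := by
    apply cert_indep u hu hn'.symm x.2
    intro τ
    rw [← hrel τ, hP0]
    simp
  exact Prod.ext hP0 (funext hC)

end count

/-- The certificate, for an arbitrary weight 12 form `u` on `Γ₀(N)` all of whose translates by
elements outside `Γ₀(N)` differ from `u`. -/
theorem exists_certificate_of (N : ℕ) [NeZero N] {k : ℤ} (hk : Even k)
    (f : CuspForm (Gamma0 N) k) (u : ModularForm (Gamma0 N) 12)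
    (hu : ∀ γ : SL(2, ℤ), γ ∉ Gamma0 N → (⇑u) ∣[(12 : ℤ)] γ ≠ ⇑u) :
    ∃ (n : ℕ) (K K' : ℤ) (P : ModularForm 𝒮ℒ K) (C : Fin n → ModularForm 𝒮ℒ K'),
      P ≠ 0 ∧ K + k = K' + 12 * ((n : ℤ) - 1) ∧ 0 < n ∧
      ∀ τ, P τ * f τ = ∑ j : Fin n, C j τ * u τ ^ (j : ℕ) * Δ τ ^ (n - 1 - (j : ℕ)) := by
  refine cert_general (𝒢 := (Gamma0 N : Subgroup (GL (Fin 2) ℝ)))
    (Subgroup.map_le_range _ _) (CongruenceSubgroup.one_mem_strictPeriods_Gamma0 N) hk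
    (ModularFormClass.modularForm f) u ?_
  intro γ hγ
  apply hu
  intro hmem
  exact hγ ⟨γ, hmem, rfl⟩

/-- The certificate for `u = dil N`, assuming the statement of task DILATE-B. -/
theorem exists_certificate_of_ne (N : ℕ) [NeZero N]
    (hne : ∀ γ : SL(2, ℤ), γ ∉ Gamma0 N →
      (fun τ : ℍ => ModularForm.discriminant (ModularForm.heckeDiagMatrix N • τ)) ∣[(12 : ℤ)] γ ≠
        (fun τ : ℍ => ModularForm.discriminant (ModularForm.heckeDiagMatrix N • τ)))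
    {k : ℤ} (hk : Even k) (f : CuspForm (Gamma0 N) k) :
    ∃ (n : ℕ) (K K' : ℤ) (P : ModularForm 𝒮ℒ K) (C : Fin n → ModularForm 𝒮ℒ K'),
      P ≠ 0 ∧ K + k = K' + 12 * ((n : ℤ) - 1) ∧ 0 < n ∧
      ∀ τ, P τ * f τ = ∑ j : Fin n, C j τ * dil N τ ^ (j : ℕ) *
        ModularForm.discriminant τ ^ (n - 1 - (j : ℕ)) := by
  have hcoe : (⇑(dil N)) =
      (fun τ : ℍ => ModularForm.discriminant (ModularForm.heckeDiagMatrix N • τ)) :=
    funext (dil_apply N)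
  exact exists_certificate_of N hk f (dil N) (fun γ hγ => by rw [hcoe]; exact hne γ hγ)

end Fermat.Agent.S23
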