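import Mathlib
import Fermat.Agent.S23.Basic

/-!
S23 project, task DIVISION: dividing holomorphic functions on the upper half plane when the
quotient satisfies a monic equation; roots of monic polynomials with small coefficients are small.
-/

set_option autoImplicit false

namespace Fermat.Agent.S23

open UpperHalfPlane ModularForm CongruenceSubgroup Filter Topology
open scoped MatrixGroups Manifold

/-- Cauchy type root bound. -/
lemma division_norm_le_of_monic_root (n : ℕ) (x : ℂ) (c : ℕ → ℂ)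
    (h : x ^ n + ∑ i ∈ Finset.range n, c i * x ^ i = 0) :
    ‖x‖ ≤ max 1 (∑ i ∈ Finset.range n, ‖c i‖) := by
  by_cases hx : ‖x‖ ≤ 1
  · exact le_max_of_le_left hx
  push Not at hx
  apply le_max_of_le_right
  rcases n with _ | m
  · simp at h
  have h1 : ‖x‖ ^ (m + 1) ≤ (∑ i ∈ Finset.range (m + 1), ‖c i‖) * ‖x‖ ^ m := by
    have hx' : x ^ (m + 1) = - ∑ i ∈ Finset.range (m + 1), c i * x ^ i := by
      linear_combination h
    calc ‖x‖ ^ (m + 1) = ‖x ^ (m + 1)‖ := (norm_pow _ _).symm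
      _ = ‖∑ i ∈ Finset.range (m + 1), c i * x ^ i‖ := by rw [hx', norm_neg]
      _ ≤ ∑ i ∈ Finset.range (m + 1), ‖c i * x ^ i‖ := norm_sum_le _ _
      _ ≤ ∑ i ∈ Finset.range (m + 1), ‖c i‖ * ‖x‖ ^ m := by
          apply Finset.sum_le_sum
          intro i hi
          rw [norm_mul, norm_pow]
          gcongr
          · exact hx.le
          · exact Nat.lt_succ_iff.mp (Finset.mem_range.mp hi)
      _ = _ := by rw [Finset.sum_mul]
  have hpos : 0 < ‖x‖ ^ m := by positivity
  rw [pow_succ, mul_comm] at h1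
  exact le_of_mul_le_mul_right (by linarith) hpos

/-- If the coefficients are small then so is the root. -/
lemma division_norm_pow_le_of_monic_root (n : ℕ) (x : ℂ) (c : ℕ → ℂ)
    (h : x ^ n + ∑ i ∈ Finset.range n, c i * x ^ i = 0)
    (hc : ∑ i ∈ Finset.range n, ‖c i‖ ≤ 1) :
    ‖x‖ ^ n ≤ ∑ i ∈ Finset.range n, ‖c i‖ := by
  have hx1 : ‖x‖ ≤ 1 := by
    have := division_norm_le_of_monic_root n x c h
    rwa [max_eq_left hc] at this
  have hx' : x ^ n = - ∑ i ∈ Finset.range n, c i * x ^ i := by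
    linear_combination h
  calc ‖x‖ ^ n = ‖x ^ n‖ := (norm_pow _ _).symm
    _ = ‖∑ i ∈ Finset.range n, c i * x ^ i‖ := by rw [hx', norm_neg]
    _ ≤ ∑ i ∈ Finset.range n, ‖c i * x ^ i‖ := norm_sum_le _ _
    _ ≤ ∑ i ∈ Finset.range n, ‖c i‖ := by
        apply Finset.sum_le_sum
        intro i _
        rw [norm_mul, norm_pow]
        exact mul_le_of_le_one_right (norm_nonneg _) (pow_le_one₀ (norm_nonneg _) hx1)

theorem tendsto_zero_of_monic_root {α : Type*} {l : Filter α} (n : ℕ) (hn : 0 < n) {G : α → ℂ}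
    {a : ℕ → α → ℂ} (ha : ∀ i < n, Tendsto (a i) l (𝓝 0))
    (h : ∀ x, G x ^ n + ∑ i ∈ Finset.range n, a i x * G x ^ i = 0) : Tendsto G l (𝓝 0) := by
  have hs : Tendsto (fun x => ∑ i ∈ Finset.range n, ‖a i x‖) l (𝓝 0) := by
    have : Tendsto (fun x => ∑ i ∈ Finset.range n, ‖a i x‖) l
        (𝓝 (∑ i ∈ Finset.range n, (0 : ℝ))) := by
      apply tendsto_finsetSum
      intro i hi
      simpa using (ha i (Finset.mem_range.mp hi)).norm
    simpa using this
  rw [tendsto_zero_iff_norm_tendsto_zero, Metric.tendsto_nhds]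
  intro ε hε
  have hε' : 0 < min 1 (ε ^ n) := lt_min one_pos (pow_pos hε n)
  filter_upwards [(Metric.tendsto_nhds.mp hs) _ hε'] with x hx
  rw [Real.dist_eq, sub_zero, abs_of_nonneg (Finset.sum_nonneg fun _ _ => norm_nonneg _)] at hx
  have h1 := division_norm_pow_le_of_monic_root n (G x) (fun i => a i x) (h x)
    (hx.le.trans (min_le_left _ _))
  have h2 : ‖G x‖ ^ n < ε ^ n := h1.trans_lt (hx.trans_le (min_le_right _ _))
  rw [Real.dist_eq, sub_zero, abs_of_nonneg (norm_nonneg _)]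
  exact lt_of_pow_lt_pow_left₀ n hε.le h2


/-- Local version of the division theorem, on an open subset of `ℂ`. -/
lemma division_local (n : ℕ) {U : Set ℂ} (hU : IsOpen U) {p q : ℂ → ℂ} {a : ℕ → ℂ → ℂ}
    (hp : DifferentiableOn ℂ p U) (hq : DifferentiableOn ℂ q U)
    (ha : ∀ i < n, ContinuousOn (a i) U)
    (h : ∀ z ∈ U, q z ^ n + ∑ i ∈ Finset.range n, a i z * q z ^ i * p z ^ (n - i) = 0)
    {c : ℂ} (hc : c ∈ U) (hiso : ∀ᶠ z in 𝓝[≠] c, p z ≠ 0) :
    ∃ s ∈ 𝓝 c, s ⊆ U ∧ (∀ z ∈ s \ {c}, p z ≠ 0) ∧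
      DifferentiableOn ℂ (Function.update (fun z => q z / p z) c
        (limUnder (𝓝[≠] c) (fun z => q z / p z))) s := by
  -- a bound for the coefficients near `c`
  have hcont : ContinuousAt (fun z => max 1 (∑ i ∈ Finset.range n, ‖a i z‖)) c := by
    refine ContinuousAt.sup continuousAt_const ?_
    apply tendsto_finsetSum
    intro i hi
    exact ((ha i (Finset.mem_range.mp hi)).continuousAt (hU.mem_nhds hc)).norm
  have hbd : ∀ᶠ z in 𝓝 c, max 1 (∑ i ∈ Finset.range n, ‖a i z‖) <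
      max 1 (∑ i ∈ Finset.range n, ‖a i c‖) + 1 :=
    hcont.eventually_lt continuousAt_const (by simp)
  rw [eventually_nhdsWithin_iff] at hiso
  refine ⟨{z | z ∈ U ∧ (z ∈ ({c}ᶜ : Set ℂ) → p z ≠ 0) ∧
    max 1 (∑ i ∈ Finset.range n, ‖a i z‖) < max 1 (∑ i ∈ Finset.range n, ‖a i c‖) + 1},
    ?_, fun z hz => hz.1, fun z hz => hz.1.2.1 hz.2, ?_⟩
  · filter_upwards [hU.mem_nhds hc, hiso, hbd] with z h1 h2 h3 using ⟨h1, h2, h3⟩
  apply Complex.differentiableOn_update_limUnder_of_bddAbove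
  · filter_upwards [hU.mem_nhds hc, hiso, hbd] with z h1 h2 h3 using ⟨h1, h2, h3⟩
  · intro z hz
    have hzU : z ∈ U := hz.1.1
    have hpz : p z ≠ 0 := hz.1.2.1 hz.2
    exact (((hq z hzU).differentiableAt (hU.mem_nhds hzU)).div
      ((hp z hzU).differentiableAt (hU.mem_nhds hzU)) hpz).differentiableWithinAt
  · refine ⟨max 1 (∑ i ∈ Finset.range n, ‖a i c‖) + 1, ?_⟩
    rintro _ ⟨z, hz, rfl⟩
    have hzU : z ∈ U := hz.1.1
    have hpz : p z ≠ 0 := hz.1.2.1 hz.2
    have hroot : (q z / p z) ^ n + ∑ i ∈ Finset.range n, a i z * (q z / p z) ^ i = 0 := by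
      have h0 := h z hzU
      have hpn : p z ^ n ≠ 0 := pow_ne_zero _ hpz
      apply mul_left_cancel₀ hpn
      rw [mul_zero, ← h0, mul_add, Finset.mul_sum]
      congr 1
      · rw [div_pow]; field_simp
      · apply Finset.sum_congr rfl
        intro i hi
        have hi' : i ≤ n := (Finset.mem_range.mp hi).le
        have : p z ^ n = p z ^ (n - i) * p z ^ i := by rw [← pow_add, Nat.sub_add_cancel hi']
        rw [this, div_pow]
        have hpi : p z ^ i ≠ 0 := pow_ne_zero _ hpz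
        field_simp
    exact (division_norm_le_of_monic_root n _ _ hroot).trans hz.1.2.2.le

theorem exists_mdiff_quotient (n : ℕ) {P Q : ℍ → ℂ} {a : ℕ → ℍ → ℂ} (hP : MDiff P)
    (hQ : MDiff Q) (ha : ∀ i < n, MDiff (a i)) (hP0 : P ≠ 0)
    (h : ∀ τ, Q τ ^ n + ∑ i ∈ Finset.range n, a i τ * Q τ ^ i * P τ ^ (n - i) = 0) :
    ∃ F : ℍ → ℂ, MDiff F ∧ (∀ τ, P τ * F τ = Q τ) ∧
      ∀ τ, F τ ^ n + ∑ i ∈ Finset.range n, a i τ * F τ ^ i = 0 := by
  have hn : 0 < n := by
    rcases Nat.eq_zero_or_pos n with rfl | hn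
    · have := h I
      simp at this
    · exact hn
  set U : Set ℂ := {z | 0 < z.im} with hUdef
  have hU : IsOpen U := isOpen_upperHalfPlaneSet
  set p : ℂ → ℂ := P ∘ ofComplex with hpdef
  set q : ℂ → ℂ := Q ∘ ofComplex with hqdef
  set a' : ℕ → ℂ → ℂ := fun i => a i ∘ ofComplex with ha'def
  set g : ℂ → ℂ := fun z => q z / p z with hgdef
  have hp : DifferentiableOn ℂ p U := UpperHalfPlane.mdifferentiable_iff.mp hP
  have hq : DifferentiableOn ℂ q U := UpperHalfPlane.mdifferentiable_iff.mp hQ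
  have ha' : ∀ i < n, ContinuousOn (a' i) U := fun i hi =>
    (UpperHalfPlane.mdifferentiable_iff.mp (ha i hi)).continuousOn
  have h' : ∀ z ∈ U, q z ^ n + ∑ i ∈ Finset.range n, a' i z * q z ^ i * p z ^ (n - i) = 0 :=
    fun z _ => h (ofComplex z)
  have hiso : ∀ c ∈ U, ∀ᶠ z in 𝓝[≠] c, p z ≠ 0 := by
    intro c hc
    by_contra hcon
    rw [not_eventually] at hcon
    apply hP0
    have han := hp.analyticOnNhd hU
    have hpre : IsPreconnected U :=
      (Complex.isConnected_of_upperHalfPlane subset_rfl (by grind)).isPreconnected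
    have hz := han.eqOn_zero_of_preconnected_of_frequently_eq_zero hpre hc
      (hcon.mono fun z hz => not_not.mp hz)
    ext w
    have := hz w.im_pos
    simpa [hpdef, ofComplex_apply] using this
  have key := fun c (hc : c ∈ U) => division_local n hU hp hq ha' h' hc (hiso c hc)
  -- the quotient
  set F' : ℂ → ℂ := fun z => limUnder (𝓝[≠] z) g with hF'def
  have hF'g : ∀ z ∈ U, p z ≠ 0 → F' z = g z := by
    intro z hz hpz
    have hcont : ContinuousAt g z :=
      (((hq z hz).differentiableAt (hU.mem_nhds hz)).div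
        ((hp z hz).differentiableAt (hU.mem_nhds hz)) hpz).continuousAt
    exact (hcont.tendsto.mono_left nhdsWithin_le_nhds).limUnder_eq
  have hF'diff : DifferentiableOn ℂ F' U := by
    intro c hc
    obtain ⟨s, hs, hsU, hsp, hsd⟩ := key c hc
    have hEq : F' =ᶠ[𝓝 c] Function.update g c (limUnder (𝓝[≠] c) g) := by
      filter_upwards [hs] with z hz
      by_cases hzc : z = c
      · subst hzc
        simp [hF'def]
      · rw [Function.update_of_ne hzc]
        exact hF'g z (hsU hz) (hsp z ⟨hz, hzc⟩)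
    exact ((hsd.differentiableAt hs).congr_of_eventuallyEq hEq).differentiableWithinAt
  have hroot' : ∀ z ∈ U, F' z ^ n + ∑ i ∈ Finset.range n, a' i z * F' z ^ i = 0 := by
    have hgood : ∀ z ∈ U, p z ≠ 0 → F' z ^ n + ∑ i ∈ Finset.range n, a' i z * F' z ^ i = 0 := by
      intro z hz hpz
      rw [hF'g z hz hpz]
      have h0 := h' z hz
      have hpn : p z ^ n ≠ 0 := pow_ne_zero _ hpz
      apply mul_left_cancel₀ hpn
      rw [mul_zero, ← h0, mul_add, Finset.mul_sum]
      congr 1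
      · rw [hgdef]; simp only [div_pow]; field_simp
      · apply Finset.sum_congr rfl
        intro i hi
        have hi' : i ≤ n := (Finset.mem_range.mp hi).le
        have : p z ^ n = p z ^ (n - i) * p z ^ i := by rw [← pow_add, Nat.sub_add_cancel hi']
        rw [this, hgdef]
        simp only [div_pow]
        have hpi : p z ^ i ≠ 0 := pow_ne_zero _ hpz
        field_simp
    intro c hc
    have hcontF : ContinuousAt F' c := ((hF'diff c hc).differentiableAt (hU.mem_nhds hc)).continuousAt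
    have hcontH : ContinuousAt (fun z => F' z ^ n + ∑ i ∈ Finset.range n, a' i z * F' z ^ i) c := by
      apply ContinuousAt.add (hcontF.pow n)
      apply tendsto_finsetSum
      intro i hi
      exact ((ha' i (Finset.mem_range.mp hi)).continuousAt (hU.mem_nhds hc)).mul (hcontF.pow i)
    have hev : ∀ᶠ z in 𝓝[≠] c, F' z ^ n + ∑ i ∈ Finset.range n, a' i z * F' z ^ i = 0 := by
      filter_upwards [hiso c hc, nhdsWithin_le_nhds (hU.mem_nhds hc)] with z hz hzU
      exact hgood z hzU hz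
    have ht1 : Tendsto (fun z => F' z ^ n + ∑ i ∈ Finset.range n, a' i z * F' z ^ i) (𝓝[≠] c)
        (𝓝 (F' c ^ n + ∑ i ∈ Finset.range n, a' i c * F' c ^ i)) :=
      hcontH.tendsto.mono_left nhdsWithin_le_nhds
    have ht2 : Tendsto (fun z => F' z ^ n + ∑ i ∈ Finset.range n, a' i z * F' z ^ i) (𝓝[≠] c)
        (𝓝 0) := (tendsto_congr' hev).mpr tendsto_const_nhds
    exact tendsto_nhds_unique ht1 ht2
  refine ⟨fun τ => F' τ, ?_, ?_, ?_⟩
  · rw [UpperHalfPlane.mdifferentiable_iff]
    apply hF'diff.congr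
    intro z hz
    simp only [Function.comp_apply]
    rw [ofComplex_apply_of_im_pos hz]
  · intro τ
    have hτ : (τ : ℂ) ∈ U := τ.im_pos
    have hpτ : p τ = P τ := by simp [hpdef, ofComplex_apply]
    have hqτ : q τ = Q τ := by simp [hqdef, ofComplex_apply]
    by_cases hz : P τ = 0
    · have h0 := h τ
      rw [hz, zero_mul]
      have hsum : ∑ i ∈ Finset.range n, a i τ * Q τ ^ i * (0 : ℂ) ^ (n - i) = 0 := by
        apply Finset.sum_eq_zero
        intro i hi
        have : n - i ≠ 0 := by have := Finset.mem_range.mp hi; omega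
        rw [zero_pow this, mul_zero]
      rw [hz, hsum, add_zero] at h0
      exact (pow_eq_zero_iff hn.ne').mp h0 |>.symm
    · change P τ * F' τ = Q τ
      rw [hF'g τ hτ (by rwa [hpτ]), hgdef]
      simp only [hpτ, hqτ]
      field_simp
  · intro τ
    have hτ : (τ : ℂ) ∈ U := τ.im_pos
    have := hroot' τ hτ
    simpa [ha'def, ofComplex_apply] using this

end Fermat.Agent.S23
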