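import Mathlib
import Fermat.Agent.S23.Basic

/-!
S23 project, task INTEGRAL: a cusp form on `Γ₀(N)` is a root of a monic polynomial whose lower
coefficients are level one cusp forms (elementary symmetric functions of its translates).
-/

set_option autoImplicit false

namespace Fermat.Agent.S23

open UpperHalfPlane ModularForm CongruenceSubgroup Filter Topology SlashInvariantForm
open scoped MatrixGroups Manifold

noncomputable section

section general

variable {𝒢 ℋ : Subgroup (GL (Fin 2) ℝ)} {k : ℤ}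

local notation "𝒬" => ℋ ⧸ (𝒢.subgroupOf ℋ)

/-- The `j`-th elementary symmetric function of the translates of `f`. -/
def integralEsymmFun [Fintype 𝒬] (f : CuspForm 𝒢 k) (j : ℕ) : ℍ → ℂ :=
  ∑ t ∈ (Finset.univ : Finset 𝒬).powersetCard j, ∏ q ∈ t, quotientFunc f q

theorem integralEsymmFun_slash [Fintype 𝒬] [ℋ.HasDetPlusMinusOne] (f : CuspForm 𝒢 k) (j : ℕ)
    {h : GL (Fin 2) ℝ} (hh : h ∈ ℋ) :
    integralEsymmFun (ℋ := ℋ) f j ∣[k * j] h = integralEsymmFun (ℋ := ℋ) f j := by
  classical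
  unfold integralEsymmFun
  rw [SlashAction.sum_slash]
  set σ : Equiv.Perm 𝒬 := MulAction.toPerm ((⟨h, hh⟩ : ℋ)⁻¹) with hσ
  refine Finset.sum_equiv σ.finsetCongr ?_ ?_
  · intro t
    simp
  · intro t ht
    have hcard : (t.card : ℤ) = j := by
      exact_mod_cast (Finset.mem_powersetCard_univ.mp ht)
    rw [← hcard, ModularForm.prod_slash, Subgroup.HasDetPlusMinusOne.abs_det hh, one_zpow,
      one_smul, Equiv.finsetCongr_apply, Finset.prod_map]
    refine Finset.prod_congr rfl fun q _ => ?_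
    rw [quotientFunc_smul f hh]
    rfl

/-- The `j`-th elementary symmetric function of the translates of `f`, as a cusp form (`j ≥ 1`). -/
def integralEsymmCusp [Fintype 𝒬] [𝒢.IsFiniteRelIndex ℋ] [ℋ.HasDetPlusMinusOne]
    (f : CuspForm 𝒢 k) (j : ℕ) (hj : 0 < j) : CuspForm ℋ (k * j) where
  toFun := integralEsymmFun (ℋ := ℋ) f j
  slash_action_eq' h hh := integralEsymmFun_slash f j hh
  holo' := .sum fun t _ => .prod (Quotient.forall.mpr fun ⟨r, hr⟩ _ ↦ (CuspForm.translate f r⁻¹).holo')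
  zero_at_cusps' h γ := by
    rintro rfl
    simp_rw [integralEsymmFun, IsZeroAtImInfty, Filter.ZeroAtFilter,
      SlashAction.sum_slash, Finset.sum_fn]
    rw [show (0 : ℂ) = ∑ t ∈ (Finset.univ : Finset 𝒬).powersetCard j, 0 by simp]
    refine tendsto_finsetSum _ fun t ht => ?_
    have hcard : t.card = j := Finset.mem_powersetCard_univ.mp ht
    have hcard' : (t.card : ℤ) = j := by exact_mod_cast hcard
    rw [← hcard', ModularForm.prod_slash]
    have hne : t.Nonempty := Finset.card_pos.mp (hcard ▸ hj)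
    have key : Tendsto (fun τ => ∏ q ∈ t, (quotientFunc f q ∣[k] γ) τ) atImInfty (𝓝 0) := by
      have h0 : (0 : ℂ) = ∏ q ∈ t, (0 : ℂ) := by
        rw [Finset.prod_const, zero_pow (Finset.card_ne_zero.mpr hne)]
      rw [h0]
      refine tendsto_finsetProd _ (Quotient.forall.mpr fun ⟨r, hr⟩ _ ↦ ?_)
      refine (CuspForm.translate f _).zero_at_cusps' ?_ γ rfl
      simpa using h.of_isFiniteRelIndex_conj hr
    have := key.const_smul (|γ.det.val| ^ ((t.card : ℤ) - 1))
    rw [smul_zero] at this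
    refine this.congr fun τ => ?_
    simp [Finset.prod_apply]

/-- Vieta: `f` is a root of the polynomial whose roots are its translates. -/
theorem integral_vieta [Fintype 𝒬] (f : CuspForm 𝒢 k) (τ : ℍ) :
    ∑ j ∈ Finset.range (Fintype.card 𝒬 + 1),
      (-1) ^ j * (integralEsymmFun (ℋ := ℋ) f j τ * f τ ^ (Fintype.card 𝒬 - j)) = 0 := by
  classical
  set s : Multiset ℂ := (Finset.univ : Finset 𝒬).val.map (fun q => quotientFunc f q τ) with hs
  have hcard : Multiset.card s = Fintype.card 𝒬 := by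
    rw [hs, Multiset.card_map]; rfl
  have h1 := congrArg (Polynomial.eval (f τ)) (Multiset.prod_X_sub_X_eq_sum_esymm s)
  have h2 : Polynomial.eval (f τ) (s.map fun t => Polynomial.X - Polynomial.C t).prod = 0 := by
    rw [Polynomial.eval_multiset_prod, Multiset.prod_eq_zero]
    rw [Multiset.mem_map]
    refine ⟨Polynomial.X - Polynomial.C (f τ), ?_, by simp⟩
    rw [Multiset.mem_map]
    refine ⟨f τ, ?_, rfl⟩
    rw [hs, Multiset.mem_map]
    refine ⟨(⟦1⟧ : 𝒬), Finset.mem_univ _, ?_⟩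
    rw [quotientFunc_mk]
    simp
  rw [h2, hcard, Polynomial.eval_finsetSum] at h1
  rw [h1]
  refine Finset.sum_congr rfl fun j _ => ?_
  have h3 : s.esymm j = integralEsymmFun (ℋ := ℋ) f j τ := by
    rw [hs, Finset.esymm_map_val, integralEsymmFun, Finset.sum_apply]
    exact Finset.sum_congr rfl fun t _ => (Finset.prod_apply _ _ _).symm
  simp [h3]

theorem integral_coe_cast {w w' : ℤ} (hw : w = w') (A : CuspForm ℋ w) :
    ⇑(hw ▸ A : CuspForm ℋ w') = ⇑A := by
  subst hw; rfl

theorem integral_general [𝒢.IsFiniteRelIndex ℋ] [ℋ.HasDetOne] (f : CuspForm 𝒢 k) :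
    ∃ (n : ℕ) (a : ℕ → ℍ → ℂ), 0 < n ∧
      (∀ i < n, ∃ A : CuspForm ℋ (((n : ℤ) - i) * k), ⇑A = a i) ∧
      ∀ τ, f τ ^ n + ∑ i ∈ Finset.range n, a i τ * f τ ^ i = 0 := by
  classical
  let _ : Fintype 𝒬 := Fintype.ofFinite 𝒬
  set n := Fintype.card 𝒬 with hn
  refine ⟨n, fun i => (-1 : ℂ) ^ (n - i) • integralEsymmFun (ℋ := ℋ) f (n - i),
    Fintype.card_pos, fun i hi => ?_, fun τ => ?_⟩
  · have hw : k * ((n - i : ℕ) : ℤ) = ((n : ℤ) - i) * k := by
      rw [Nat.cast_sub hi.le]; ring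
    refine ⟨hw ▸ ((-1 : ℂ) ^ (n - i) • integralEsymmCusp (ℋ := ℋ) f (n - i) (by omega)), ?_⟩
    rw [integral_coe_cast]
    rfl
  · have h := integral_vieta (ℋ := ℋ) f τ
    rw [Finset.sum_range_succ', ← Finset.sum_range_reflect] at h
    have h0 : integralEsymmFun (ℋ := ℋ) f 0 τ = 1 := by
      simp [integralEsymmFun]
    rw [h0] at h
    simp only [pow_zero, one_mul, Nat.sub_zero] at h
    rw [add_comm, ← h]
    congr 1
    refine Finset.sum_congr rfl fun i hi => ?_
    have hi' : i < n := Finset.mem_range.mp hi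
    have e1 : n - 1 - i + 1 = n - i := by omega
    have e2 : n - (n - i) = i := by omega
    rw [e1, e2]
    simp only [Pi.smul_apply, smul_eq_mul]
    ring

end general

theorem exists_integral_equation (N : ℕ) [NeZero N] {k : ℤ} (f : CuspForm (Gamma0 N) k) :
    ∃ (n : ℕ) (a : ℕ → ℍ → ℂ), 0 < n ∧
      (∀ i < n, ∃ A : CuspForm 𝒮ℒ (((n : ℤ) - i) * k), ⇑A = a i) ∧
      ∀ τ, f τ ^ n + ∑ i ∈ Finset.range n, a i τ * f τ ^ i = 0 :=
  integral_general f

end

end Fermat.Agent.S23
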