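import Mathlib
import Fermat.Agent.S23.Basic
import Fermat.Agent.S23.Nice
import Fermat.Agent.S23.LevelOne
import Fermat.Agent.S23.Dilate
import Fermat.Agent.S23.Integrality
import Fermat.Agent.S23.Division
import Fermat.Agent.S23.Certificate
import Fermat.Agent.S23.DilateNe
import Fermat.Prelude.Thm_CongruenceSubgroup_one_mem_strictPeriods_Gamma0

set_option autoImplicit false

namespace Fermat.Agent.S23

open UpperHalfPlane ModularForm CongruenceSubgroup Filter Topology
open scoped MatrixGroups Manifold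

/-- purely algebraic: homogenising a monic equation. -/
theorem conj_homogenize {R : Type*} [CommRing R] (n : ℕ) (p φ q : R) (a : ℕ → R)
    (hq : p * φ = q) (h : φ ^ n + ∑ i ∈ Finset.range n, a i * φ ^ i = 0) :
    q ^ n + ∑ i ∈ Finset.range n, a i * q ^ i * p ^ (n - i) = 0 := by
  have h1 : q ^ n + ∑ i ∈ Finset.range n, a i * q ^ i * p ^ (n - i)
      = p ^ n * (φ ^ n + ∑ i ∈ Finset.range n, a i * φ ^ i) := by
    rw [mul_add, Finset.mul_sum, ← hq, mul_pow]
    congr 1
    refine Finset.sum_congr rfl fun i hi => ?_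
    have hi' : i ≤ n := (Finset.mem_range.mp hi).le
    have : p ^ n = p ^ i * p ^ (n - i) := by rw [← pow_add, Nat.add_sub_cancel' hi']
    rw [this, mul_pow]
    ring
  rw [h1, h, mul_zero]

theorem conj_levelOne_smul {F : Type*} [FunLike F ℍ ℂ] {K : ℤ} [SlashInvariantFormClass F 𝒮ℒ K]
    (G : F) (γ : SL(2, ℤ)) (τ : ℍ) :
    G (γ • τ) = denom γ τ ^ K * G τ :=
  SlashInvariantForm.slash_action_eqn'' (Γ := 𝒮ℒ) G
    (γ := Matrix.SpecialLinearGroup.mapGL ℝ γ) (MonoidHom.mem_range.mpr ⟨γ, rfl⟩) τ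

theorem conj_gamma0_smul {N : ℕ} {K : ℤ} (G : ModularForm (Gamma0 N) K) {γ : SL(2, ℤ)}
    (hγ : γ ∈ Gamma0 N) (τ : ℍ) :
    G (γ • τ) = denom γ τ ^ K * G τ :=
  SlashInvariantForm.slash_action_eqn_SL'' G hγ τ

/-- Build a cusp form on `Γ₀(N)` from analytic data. -/
theorem conj_exists_cuspForm (N : ℕ) [NeZero N] {k : ℤ} (F : ℍ → ℂ) (hF : MDiff F)
    (hinv : ∀ γ ∈ Gamma0 N, F ∣[k] γ = F)
    (hzero : ∀ γ : SL(2, ℤ), IsZeroAtImInfty (F ∣[k] γ)) :
    ∃ g : CuspForm (Gamma0 N) k, ⇑g = F := by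
  refine ⟨{ toFun := F, slash_action_eq' := ?_, holo' := hF, zero_at_cusps' := ?_ }, rfl⟩
  · rintro _ ⟨γ, hγ, rfl⟩
    exact hinv γ hγ
  · intro c hc
    rw [Subgroup.IsArithmetic.isCusp_iff_isCusp_SL2Z] at hc
    rw [OnePoint.isZeroAt_iff_forall_SL2Z hc]
    intro γ _
    exact hzero γ

/-- the weight bookkeeping for the terms of the certificate -/
theorem conj_zpow_aux {d : ℂ} (hd : d ≠ 0) {K k K' : ℤ} {n j : ℕ} (hj : j < n)
    (hK : K + k = K' + 12 * ((n : ℤ) - 1)) :
    d ^ K' * (d ^ (12 : ℤ)) ^ j * (d ^ (12 : ℤ)) ^ (n - 1 - j) = d ^ (K + k) := by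
  rw [← zpow_natCast, ← zpow_natCast, ← zpow_mul, ← zpow_mul, ← zpow_add₀ hd, ← zpow_add₀ hd, hK]
  congr 1
  have : ((n - 1 - j : ℕ) : ℤ) = (n : ℤ) - 1 - j := by omega
  rw [this]
  ring

theorem exists_conj (N : ℕ) [NeZero N] {k : ℤ} (hk : Even k) (σ : ℂ →+* ℂ)
    (f : CuspForm (Gamma0 N) k) :
    ∃ g : CuspForm (Gamma0 N) k, qExpansion 1 g = PowerSeries.map σ (qExpansion 1 f) := by
  obtain ⟨n₁, a, hn₁, hA, hint⟩ := exists_integral_equation N f
  obtain ⟨n, K, K', P, C, hP0, hK, hn, hcert⟩ := exists_certificate_of_ne N (dilFun_slash_ne N) hk f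
  have h1Γ := CongruenceSubgroup.one_mem_strictPeriods_Gamma0 N
  have h1S := one_mem_strictPeriods_SL
  -- conjugates of the level one data
  obtain ⟨P', hP'⟩ := levelOne_conj σ P
  choose C' hC' using fun j => levelOne_conj σ (C j)
  have hAN : ∀ i, ∃ (x x' : niceSub), i < n₁ → (x.1 = a i ∧
      qHom x' = PowerSeries.map σ (qHom x) ∧
      ∃ A' : CuspForm 𝒮ℒ (((n₁ : ℤ) - i) * k), ⇑A' = x'.1) := by
    intro i
    by_cases hi : i < n₁
    · obtain ⟨A, hAi⟩ := hA i hi
      obtain ⟨B, hB⟩ := levelOne_conj σ (ModularFormClass.modularForm A)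
      have hB0 : (qExpansion 1 B).coeff 0 = 0 := by
        rw [hB, PowerSeries.coeff_map]
        have : (qExpansion 1 (ModularFormClass.modularForm A)).coeff 0 = 0 :=
          CuspFormClass.qExpansion_coeff_zero A one_pos h1S
        rw [this, map_zero]
      refine ⟨⟨A, isNice_of_modularFormClass h1S A⟩, ⟨B, isNice_of_modularFormClass h1S B⟩,
        fun _ => ⟨hAi, hB, toCuspForm B hB0, rfl⟩⟩
    · exact ⟨0, 0, fun h => absurd h hi⟩
  choose aN a'N haN using hAN
  -- nice elements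
  let fN : niceSub := ⟨f, isNice_of_modularFormClass h1Γ f⟩
  let PN : niceSub := ⟨P, isNice_of_modularFormClass h1S P⟩
  let P'N : niceSub := ⟨P', isNice_of_modularFormClass h1S P'⟩
  let CN : Fin n → niceSub := fun j => ⟨C j, isNice_of_modularFormClass h1S (C j)⟩
  let C'N : Fin n → niceSub := fun j => ⟨C' j, isNice_of_modularFormClass h1S (C' j)⟩
  let uN : niceSub := ⟨dil N, isNice_of_modularFormClass h1Γ (dil N)⟩
  let ΔN : niceSub := ⟨ModularForm.discriminant,
    isNice_of_modularFormClass h1S CuspForm.discriminant⟩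
  let Q'N : niceSub := ∑ j : Fin n, C'N j * uN ^ (j : ℕ) * ΔN ^ (n - 1 - (j : ℕ))
  set φ : PowerSeries ℂ := PowerSeries.map σ (qExpansion 1 f) with hφ
  -- the two identities in `niceSub`
  have E1 : PN * fN = ∑ j : Fin n, CN j * uN ^ (j : ℕ) * ΔN ^ (n - 1 - (j : ℕ)) := by
    apply Subtype.ext
    funext τ
    simpa [PN, fN, CN, uN, ΔN] using hcert τ
  have E2 : fN ^ n₁ + ∑ i ∈ Finset.range n₁, aN i * fN ^ i = 0 := by
    apply Subtype.ext
    funext τ
    have h0 := hint τ
    have h1 : ∑ i ∈ Finset.range n₁, a i τ * f τ ^ i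
        = ∑ i ∈ Finset.range n₁, (aN i).1 τ * f τ ^ i :=
      Finset.sum_congr rfl fun i hi => by rw [(haN i (Finset.mem_range.mp hi)).1]
    rw [h1] at h0
    simpa [fN] using h0
  -- transport to power series and conjugate
  have hu : PowerSeries.map σ (qHom uN) = qHom uN := (bddDen_dil N).isRatSeries.map_eq σ
  have hΔ : PowerSeries.map σ (qHom ΔN) = qHom ΔN := bddDen_discriminant.isRatSeries.map_eq σ
  have E1' : qHom P'N * φ = qHom Q'N := by
    have h := congrArg (fun x => PowerSeries.map σ (qHom x)) E1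
    simp only [map_mul, map_sum, map_pow, hu, hΔ] at h
    have hPP : PowerSeries.map σ (qHom PN) = qHom P'N := hP'.symm
    have hCC : ∀ j, PowerSeries.map σ (qHom (CN j)) = qHom (C'N j) := fun j => (hC' j).symm
    simp only [hPP, hCC] at h
    simp only [Q'N, map_mul, map_sum, map_pow]
    exact h
  have E2' : φ ^ n₁ + ∑ i ∈ Finset.range n₁, qHom (a'N i) * φ ^ i = 0 := by
    have h := congrArg (fun x => PowerSeries.map σ (qHom x)) E2
    simp only [map_mul, map_sum, map_pow, map_add, map_zero] at h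
    rw [← h]
    congr 1
    exact Finset.sum_congr rfl fun i hi => by rw [(haN i (Finset.mem_range.mp hi)).2.1]; rfl
  have E3 : Q'N ^ n₁ + ∑ i ∈ Finset.range n₁, a'N i * Q'N ^ i * P'N ^ (n₁ - i) = 0 := by
    apply qHom_injective
    simp only [map_mul, map_sum, map_pow, map_add, map_zero]
    exact conj_homogenize n₁ _ φ _ _ E1' E2'
  have hP'0 : (P' : ℍ → ℂ) ≠ 0 := by
    intro h
    have h1 : qExpansion 1 P' = 0 := by rw [h]; exact qExpansion_zero 1
    rw [hP'] at h1
    have h2 : qExpansion 1 P = 0 := by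
      ext m
      have := congrArg (fun s => PowerSeries.coeff m s) h1
      simpa using this
    exact hP0 ((ModularForm.qExpansion_eq_zero_iff one_pos h1S P).mp h2)
  -- divide
  obtain ⟨F, hF, hPF, hFeq⟩ := exists_mdiff_quotient n₁ (P := P') (Q := Q'N.1)
    (a := fun i => (a'N i).1) P'.holo' Q'N.2.2.1 (fun i _ => (a'N i).2.2.1) hP'0 (by
      intro τ
      have := congrFun (congrArg Subtype.val E3) τ
      simpa [P'N] using this)
  have hQ'apply : ∀ τ, Q'N.1 τ = ∑ j : Fin n, C' j τ * dil N τ ^ (j : ℕ) *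
      ModularForm.discriminant τ ^ (n - 1 - (j : ℕ)) := by
    intro τ
    simp [Q'N, C'N, uN, ΔN]
  -- invariance under `Γ₀(N)`
  have hinv : ∀ γ ∈ Gamma0 N, F ∣[k] γ = F := by
    intro γ hγ
    have hmul : (P' : ℍ → ℂ) * (F ∣[k] γ - F) = 0 := by
      funext τ
      have hd : denom γ τ ≠ 0 := denom_ne_zero _ _
      have hQ : Q'N.1 (γ • τ) = denom γ τ ^ (K + k) * Q'N.1 τ := by
        rw [hQ'apply, hQ'apply, Finset.mul_sum]
        refine Finset.sum_congr rfl fun j _ => ?_
        rw [conj_levelOne_smul (C' j) γ τ, conj_gamma0_smul (dil N) hγ τ,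
          show ModularForm.discriminant (γ • τ) = denom γ τ ^ (12 : ℤ) * ModularForm.discriminant τ
            from conj_levelOne_smul CuspForm.discriminant γ τ,
          ← conj_zpow_aux hd j.2 hK, mul_pow, mul_pow]
        ring
      have h1 := hPF (γ • τ)
      rw [hQ, ← hPF τ, conj_levelOne_smul P' γ τ, zpow_add₀ hd] at h1
      have h2 : P' τ * F (γ • τ) = P' τ * (denom γ τ ^ k * F τ) := by
        have h3 : denom γ τ ^ K ≠ 0 := zpow_ne_zero _ hd
        apply mul_left_cancel₀ h3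
        linear_combination h1
      simp only [Pi.mul_apply, Pi.sub_apply, Pi.zero_apply, SL_slash_apply]
      rw [mul_sub, ← mul_assoc, h2, zpow_neg]
      field_simp
      ring
    rcases (UpperHalfPlane.mul_eq_zero_iff P'.holo' ((hF.slash k _).sub hF)).mp hmul with h | h
    · exact absurd h hP'0
    · exact sub_eq_zero.mp h
  -- vanishing at the cusps
  have hzero : ∀ γ : SL(2, ℤ), IsZeroAtImInfty (F ∣[k] γ) := by
    intro γ
    refine tendsto_zero_of_monic_root n₁ hn₁ (a := fun i => (a'N i).1) ?_ ?_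
    · intro i hi
      obtain ⟨A', hA'⟩ := (haN i hi).2.2
      rw [← hA']
      exact CuspFormClass.zero_at_infty A'
    · intro τ
      have hd : denom γ τ ≠ 0 := denom_ne_zero _ _
      have h0 := hFeq (γ • τ)
      have h1 : ∑ i ∈ Finset.range n₁, (a'N i).1 (γ • τ) * F (γ • τ) ^ i =
          ∑ i ∈ Finset.range n₁, denom γ τ ^ ((n₁ : ℤ) * k) *
            ((a'N i).1 τ * ((F ∣[k] γ) τ) ^ i) := by
        refine Finset.sum_congr rfl fun i hi => ?_
        obtain ⟨A', hA'⟩ := (haN i (Finset.mem_range.mp hi)).2.2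
        rw [← hA', conj_levelOne_smul A' γ τ, SL_slash_apply, mul_pow, ← zpow_natCast,
          ← zpow_natCast (denom γ τ ^ (-k)), ← zpow_mul]
        have : denom γ τ ^ ((n₁ : ℤ) * k) = denom γ τ ^ (((n₁ : ℤ) - i) * k) *
            denom γ τ ^ ((i : ℤ) * k) := by
          rw [← zpow_add₀ hd]; congr 1; ring
        rw [this]
        have h2 : denom γ τ ^ ((i : ℤ) * k) * denom γ τ ^ (-k * (i : ℤ)) = 1 := by
          rw [← zpow_add₀ hd]
          have : (i : ℤ) * k + -k * (i : ℤ) = 0 := by ring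
          rw [this, zpow_zero]
        linear_combination (-(denom γ τ ^ (((n₁ : ℤ) - i) * k) * A' τ * F (γ • τ) ^ (i : ℤ))) * h2
      have h3 : F (γ • τ) ^ n₁ = denom γ τ ^ ((n₁ : ℤ) * k) * ((F ∣[k] γ) τ) ^ n₁ := by
        rw [SL_slash_apply, mul_pow, ← zpow_natCast (denom γ τ ^ (-k)), ← zpow_mul]
        have h2 : denom γ τ ^ ((n₁ : ℤ) * k) * denom γ τ ^ (-k * (n₁ : ℤ)) = 1 := by
          rw [← zpow_add₀ hd]
          have : (n₁ : ℤ) * k + -k * (n₁ : ℤ) = 0 := by ring
          rw [this, zpow_zero]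
        linear_combination (-(F (γ • τ) ^ n₁)) * h2
      rw [h1, h3, ← Finset.mul_sum, ← mul_add] at h0
      exact (mul_eq_zero.mp h0).resolve_left (zpow_ne_zero _ hd)
  obtain ⟨g, hg⟩ := conj_exists_cuspForm N F hF hinv hzero
  refine ⟨g, ?_⟩
  let gN : niceSub := ⟨g, isNice_of_modularFormClass h1Γ g⟩
  have hPg : P'N * gN = Q'N := by
    apply Subtype.ext
    funext τ
    simpa [P'N, gN, hg] using hPF τ
  have h4 : qHom P'N * qHom gN = qHom P'N * φ := by
    rw [← map_mul, hPg, E1']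
  have h5 : qHom P'N ≠ 0 := by
    intro h
    apply hP'0
    have := qHom_injective (h.trans (map_zero qHom).symm)
    exact congrArg Subtype.val this
  exact mul_left_cancel₀ h5 h4

end Fermat.Agent.S23
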