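import Mathlib

set_option autoImplicit false

namespace Fermat.Agent.S23

open MvPolynomial

/-- An algebraic irrational complex number is moved by some ring automorphism of `ℂ`. -/
theorem exists_ringEquiv_ne_of_isAlgebraic {x : ℂ} (hx : IsAlgebraic ℚ x)
    (hq : ∀ r : ℚ, (r : ℂ) ≠ x) : ∃ σ : ℂ ≃+* ℂ, σ x ≠ x := by
  classical
  let Qb := algebraicClosure ℚ ℂ
  have : IsAlgClosure ℚ Qb := algebraicClosure.isAlgClosure ℚ ℂ
  have : IsGalois ℚ Qb := IsAlgClosure.isGalois ℚ Qb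
  let x' : Qb := ⟨x, mem_algebraicClosure_iff.mpr hx⟩
  -- some automorphism of `Qb` moves `x'`
  have hmove : ∃ σ₀ : Qb ≃ₐ[ℚ] Qb, σ₀ x' ≠ x' := by
    by_contra hcon
    push Not at hcon
    have hmem : x' ∈ IntermediateField.fixedField
        (⊥ : IntermediateField ℚ Qb).fixingSubgroup := by
      rw [IntermediateField.mem_fixedField_iff]
      intro f _
      exact hcon f
    rw [InfiniteGalois.fixedField_fixingSubgroup] at hmem
    obtain ⟨r, hr⟩ := IntermediateField.mem_bot.mp hmem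
    apply hq r
    have := congrArg (Subtype.val) hr
    simpa using this
  obtain ⟨σ₀, hσ₀⟩ := hmove
  obtain ⟨ι, v, hv⟩ := exists_isTranscendenceBasis' Qb ℂ
  let _ := IsAlgClosed.isAlgClosure_of_transcendence_basis v hv
  let e : Algebra.adjoin Qb (Set.range v) ≃+* Algebra.adjoin Qb (Set.range v) :=
    hv.1.aevalEquiv.symm.toRingEquiv.trans
      ((MvPolynomial.mapEquiv ι σ₀.toRingEquiv).trans hv.1.aevalEquiv.toRingEquiv)
  refine ⟨IsAlgClosure.equivOfEquiv ℂ ℂ e, ?_⟩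
  have h1 : x = algebraMap (Algebra.adjoin Qb (Set.range v)) ℂ
      (algebraMap Qb (Algebra.adjoin Qb (Set.range v)) x') := rfl
  have h2 : e (algebraMap Qb (Algebra.adjoin Qb (Set.range v)) x') =
      algebraMap Qb (Algebra.adjoin Qb (Set.range v)) (σ₀ x') := by
    have h3 : hv.1.aevalEquiv.symm (algebraMap Qb (Algebra.adjoin Qb (Set.range v)) x') =
        C x' := by
      rw [AlgEquiv.symm_apply_eq]
      exact (AlgEquiv.commutes hv.1.aevalEquiv x').symm
    show hv.1.aevalEquiv ((MvPolynomial.mapEquiv ι σ₀.toRingEquiv)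
      (hv.1.aevalEquiv.symm (algebraMap Qb (Algebra.adjoin Qb (Set.range v)) x'))) = _
    rw [h3, MvPolynomial.mapEquiv_apply, MvPolynomial.map_C]
    exact AlgEquiv.commutes hv.1.aevalEquiv (σ₀ x')
  intro hfix
  rw [h1, IsAlgClosure.equivOfEquiv_algebraMap, h2] at hfix
  apply hσ₀
  exact Subtype.ext hfix

/-- A transcendental complex number is moved by some ring automorphism of `ℂ`. -/
theorem exists_ringEquiv_ne_of_transcendental {x : ℂ} (hx : Transcendental ℚ x) :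
    ∃ σ : ℂ ≃+* ℂ, σ x ≠ x := by
  classical
  have hind : AlgebraicIndepOn ℚ id ({x} : Set ℂ) := by
    have : AlgebraicIndependent ℚ (fun i : ({x} : Set ℂ) => (i : ℂ)) :=
      (algebraicIndependent_singleton_iff (⟨x, rfl⟩ : ({x} : Set ℂ))).mpr hx
    exact this
  obtain ⟨t, hxt, hv⟩ := exists_isTranscendenceBasis_superset hind
  let i₀ : t := ⟨x, hxt rfl⟩
  let _ := IsAlgClosed.isAlgClosure_of_transcendence_basis (Subtype.val : t → ℂ) hv
  let φ : MvPolynomial t ℚ →ₐ[ℚ] MvPolynomial t ℚ :=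
    aeval (fun i => if i = i₀ then -X i else X i)
  have hφφ : φ.comp φ = AlgHom.id ℚ _ := by
    ext i
    by_cases h : i = i₀ <;> simp [φ, h]
  let ψ : MvPolynomial t ℚ ≃ₐ[ℚ] MvPolynomial t ℚ := AlgEquiv.ofAlgHom φ φ hφφ hφφ
  let e : Algebra.adjoin ℚ (Set.range (Subtype.val : t → ℂ)) ≃+*
      Algebra.adjoin ℚ (Set.range (Subtype.val : t → ℂ)) :=
    hv.1.aevalEquiv.symm.toRingEquiv.trans (ψ.toRingEquiv.trans hv.1.aevalEquiv.toRingEquiv)
  refine ⟨IsAlgClosure.equivOfEquiv ℂ ℂ e, ?_⟩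
  have h1 : x = algebraMap (Algebra.adjoin ℚ (Set.range (Subtype.val : t → ℂ))) ℂ
      (hv.1.aevalEquiv (X i₀)) := by
    rw [AlgebraicIndependent.algebraMap_aevalEquiv, aeval_X]
  have h2 : e (hv.1.aevalEquiv (X i₀)) = hv.1.aevalEquiv (-X i₀) := by
    show hv.1.aevalEquiv (ψ (hv.1.aevalEquiv.symm (hv.1.aevalEquiv (X i₀)))) = _
    rw [AlgEquiv.symm_apply_apply]
    congr 1
    simp [ψ, φ]
  intro hfix
  have h3 : (IsAlgClosure.equivOfEquiv ℂ ℂ e) x = -x := by
    conv_lhs => rw [h1]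
    rw [IsAlgClosure.equivOfEquiv_algebraMap, h2, map_neg, map_neg, ← h1]
  rw [h3] at hfix
  have hx0 : x = 0 := by
    have : (2 : ℂ) * x = 0 := by linear_combination -hfix
    simpa using this
  exact hx (hx0 ▸ isAlgebraic_zero)

/-- The fixed field of the group of all ring automorphisms of `ℂ` is `ℚ`. -/
theorem exists_rat_of_forall_ringEquiv_fixed {x : ℂ} (h : ∀ σ : ℂ ≃+* ℂ, σ x = x) :
    ∃ r : ℚ, x = (r : ℂ) := by
  by_contra hcon
  push Not at hcon
  by_cases hx : IsAlgebraic ℚ x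
  · obtain ⟨σ, hσ⟩ := exists_ringEquiv_ne_of_isAlgebraic hx (fun r hr => hcon r hr.symm)
    exact hσ (h σ)
  · obtain ⟨σ, hσ⟩ := exists_ringEquiv_ne_of_transcendental hx
    exact hσ (h σ)

end Fermat.Agent.S23
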