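import Mathlib
import Fermat.Agent.S23.FixedField

set_option autoImplicit false

namespace Fermat.Agent.S23

open Module

/-- **Galois descent for coefficient spaces.**  Let `E` be a finite dimensional complex vector
space with an injective linear "coefficient" map `c : E → (ℕ → ℂ)`.  If `E` is stable under the
coefficientwise action of every ring automorphism of `ℂ`, then `E` is spanned by the elements all
of whose coefficients are rational. -/
theorem span_rational_eq_top {E : Type*} [AddCommGroup E] [Module ℂ E] [FiniteDimensional ℂ E]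
    (c : E →ₗ[ℂ] (ℕ → ℂ)) (hc : Function.Injective c)
    (hσ : ∀ (σ : ℂ ≃+* ℂ) (f : E), ∃ g : E, ∀ n, c g n = σ (c f n)) :
    Submodule.span ℂ {f : E | ∀ n, ∃ r : ℚ, c f n = (r : ℂ)} = ⊤ := by
  classical
  -- evaluation functionals
  let ev : ℕ → Dual ℂ E := fun n => (LinearMap.proj n).comp c
  have hev : ∀ n f, ev n f = c f n := fun n f => rfl
  -- they span the dual
  have hspan : (⊤ : Submodule ℂ (Dual ℂ E)) ≤ Submodule.span ℂ (Set.range ev) := by
    have h0 : (Submodule.span ℂ (Set.range ev)).dualCoannihilator = ⊥ := by
      rw [eq_bot_iff]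
      intro x hx
      rw [Submodule.mem_dualCoannihilator] at hx
      rw [Submodule.mem_bot]
      apply hc
      rw [map_zero]
      funext n
      exact hx (ev n) (Submodule.subset_span ⟨n, rfl⟩)
    have h1 := Subspace.dualCoannihilator_dualAnnihilator_eq
      (W := Submodule.span ℂ (Set.range ev))
    rw [h0, Submodule.dualAnnihilator_bot] at h1
    exact h1.le
  let B := Basis.ofSpan hspan
  have hBev : ∀ i, ∃ n, ev n = B i := fun i => Basis.ofSpan_subset hspan ⟨i, rfl⟩
  have : Finite (↑((linearIndepOn_empty ℂ id).extend (Set.empty_subset (Set.range ev)))) :=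
    Module.Finite.finite_basis B
  -- the dual basis, transported to `E`
  let e := B.dualBasis.map (evalEquiv ℂ E).symm
  have hBe : ∀ i j, B j (e i) = if j = i then 1 else 0 := by
    intro i j
    have h1 : B j (e i) = (evalEquiv ℂ E (e i)) (B j) := rfl
    rw [h1]
    simp only [e, Basis.map_apply, LinearEquiv.apply_symm_apply]
    rw [Basis.dualBasis_apply_self]
  -- elements are determined by the values of the `B j`
  have hsep : ∀ x : E, (∀ j, B j x = 0) → x = 0 := by
    intro x hx
    apply hc
    rw [map_zero]
    funext n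
    have : ev n ∈ Submodule.span ℂ (Set.range B) := by rw [B.span_eq]; trivial
    have h2 : ∀ φ ∈ Submodule.span ℂ (Set.range B), φ x = 0 := by
      intro φ hφ
      induction hφ using Submodule.span_induction with
      | mem φ h => obtain ⟨j, rfl⟩ := h; exact hx j
      | zero => rfl
      | add φ ψ _ _ h1 h2 => rw [LinearMap.add_apply, h1, h2, add_zero]
      | smul a φ _ h => rw [LinearMap.smul_apply, h, smul_zero]
    exact h2 _ this
  -- each `e i` is rational
  have hrat : ∀ i, e i ∈ {f : E | ∀ n, ∃ r : ℚ, c f n = (r : ℂ)} := by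
    intro i n
    apply exists_rat_of_forall_ringEquiv_fixed
    intro σ
    obtain ⟨g, hg⟩ := hσ σ (e i)
    have hge : g = e i := by
      rw [← sub_eq_zero]
      apply hsep
      intro j
      obtain ⟨m, hm⟩ := hBev j
      rw [map_sub, sub_eq_zero, ← hm, hev, hev, hg, ← hev, hm, hBe]
      split_ifs <;> simp
    rw [← hg, hge]
  rw [eq_top_iff, ← e.span_eq]
  apply Submodule.span_mono
  rintro _ ⟨i, rfl⟩
  exact hrat i

end Fermat.Agent.S23
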