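import Mathlib
import Fermat.Agent.S23.Basic
import Fermat.Agent.S23.Nice
import Fermat.Agent.S23.Descent
import Fermat.Agent.S23.BoundedDenoms
import Fermat.Agent.S23.Conj
import Fermat.Prelude.Def_CuspForm_IntegralStructure
import Fermat.Prelude.Thm_ModularForm_sturm_bound_Gamma0
import Fermat.Prelude.Thm_CongruenceSubgroup_one_mem_strictPeriods_Gamma0

set_option autoImplicit false

namespace Fermat.Agent.S23

open UpperHalfPlane ModularForm CongruenceSubgroup Filter Topology
open scoped MatrixGroups Manifold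

/-- The `q`-expansion coefficients as a linear map. -/
noncomputable def coeffMap (N : ℕ) (k : ℤ) : CuspForm (Gamma0 N) k →ₗ[ℂ] (ℕ → ℂ) where
  toFun f n := (qExpansion 1 f).coeff n
  map_add' f g := by
    funext n
    have := ModularForm.qExpansion_add one_pos (CongruenceSubgroup.one_mem_strictPeriods_Gamma0 N) f g
    simp only [FunLike.coe_add, Pi.add_apply]
    rw [this, map_add]
  map_smul' c f := by
    funext n
    have := ModularForm.qExpansion_smul one_pos
      (CongruenceSubgroup.one_mem_strictPeriods_Gamma0 N) c f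
    simp only [FunLike.coe_smul, Pi.smul_apply, RingHom.id_apply]
    rw [this, PowerSeries.coeff_smul]

theorem coeffMap_apply (N : ℕ) (k : ℤ) (f : CuspForm (Gamma0 N) k) (n : ℕ) :
    coeffMap N k f n = (qExpansion 1 f).coeff n := rfl

theorem main_eq_zero_of_sturm (N : ℕ) [NeZero N] (k : ℤ) (f : CuspForm (Gamma0 N) k)
    (h : ∀ n ≤ (k * (Gamma0 N).index).toNat / 12, (qExpansion 1 f).coeff n = 0) : f = 0 := by
  have hmf : (ModularFormClass.modularForm f : ModularForm (Gamma0 N) k) = 0 :=
    ModularForm.sturm_bound_Gamma0 N _ h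
  ext τ
  exact congrArg (fun F : ModularForm (Gamma0 N) k => F τ) hmf

theorem coeffMap_injective (N : ℕ) [NeZero N] (k : ℤ) : Function.Injective (coeffMap N k) := by
  rw [injective_iff_map_eq_zero]
  intro f hf
  exact main_eq_zero_of_sturm N k f fun n _ => congrFun hf n

theorem main_finiteDimensional (N : ℕ) [NeZero N] (k : ℤ) :
    FiniteDimensional ℂ (CuspForm (Gamma0 N) k) := by
  let B := (k * (Gamma0 N).index).toNat / 12
  let tr : CuspForm (Gamma0 N) k →ₗ[ℂ] (Fin (B + 1) → ℂ) :=
    (LinearMap.funLeft ℂ ℂ (fun i : Fin (B + 1) => (i : ℕ))).comp (coeffMap N k)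
  have htr : Function.Injective tr := by
    rw [injective_iff_map_eq_zero]
    intro f hf
    refine main_eq_zero_of_sturm N k f fun n hn => ?_
    exact congrFun hf ⟨n, Nat.lt_succ_of_le hn⟩
  exact FiniteDimensional.of_injective tr htr

/-- forms with rational coefficients have bounded denominators -/
theorem main_bddDen_of_rat (N : ℕ) [NeZero N] {k : ℤ} (hk : Even k) (f : CuspForm (Gamma0 N) k)
    (hf : IsRatSeries (qExpansion 1 f)) : BddDen (qExpansion 1 f) := by
  obtain ⟨n₁, a, hn₁, hA, hint⟩ := exists_integral_equation N f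
  obtain ⟨n, K, K', P, C, hP0, hK, hn, hcert⟩ := exists_certificate_of_ne N (dilFun_slash_ne N) hk f
  have h1Γ := CongruenceSubgroup.one_mem_strictPeriods_Gamma0 N
  have h1S := one_mem_strictPeriods_SL
  have hAN : ∀ i, ∃ x : niceSub, i < n₁ → (x.1 = a i ∧ qHom x ∈ bddSpan) := by
    intro i
    by_cases hi : i < n₁
    · obtain ⟨A, hAi⟩ := hA i hi
      exact ⟨⟨A, isNice_of_modularFormClass h1S A⟩, fun _ => ⟨hAi,
        levelOne_qExpansion_mem_bddSpan (ModularFormClass.modularForm A)⟩⟩
    · exact ⟨0, fun h => absurd h hi⟩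
  choose aN haN using hAN
  let fN : niceSub := ⟨f, isNice_of_modularFormClass h1Γ f⟩
  let PN : niceSub := ⟨P, isNice_of_modularFormClass h1S P⟩
  let CN : Fin n → niceSub := fun j => ⟨C j, isNice_of_modularFormClass h1S (C j)⟩
  let uN : niceSub := ⟨dil N, isNice_of_modularFormClass h1Γ (dil N)⟩
  let ΔN : niceSub := ⟨ModularForm.discriminant,
    isNice_of_modularFormClass h1S CuspForm.discriminant⟩
  have E1 : PN * fN = ∑ j : Fin n, CN j * uN ^ (j : ℕ) * ΔN ^ (n - 1 - (j : ℕ)) := by
    apply Subtype.ext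
    funext τ
    simpa [PN, fN, CN, uN, ΔN] using hcert τ
  have E2 : fN ^ n₁ + ∑ i ∈ Finset.range n₁, aN i * fN ^ i = 0 := by
    apply Subtype.ext
    funext τ
    have h0 := hint τ
    have h1 : ∑ i ∈ Finset.range n₁, a i τ * f τ ^ i
        = ∑ i ∈ Finset.range n₁, (aN i).1 τ * f τ ^ i :=
      Finset.sum_congr rfl fun i hi => by rw [(haN i (Finset.mem_range.mp hi)).1]
    rw [h1] at h0
    simpa [fN] using h0
  have E1' := congrArg qHom E1
  have E2' := congrArg qHom E2
  simp only [map_mul, map_sum, map_pow, map_add, map_zero] at E1' E2'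
  refine bddDen_of_rat' n₁ (qHom fN) (qHom PN) _ (fun i => qHom (aN i)) hf
    (levelOne_qExpansion_mem_bddSpan P) ?_ ?_ E1' (fun i hi => (haN i hi).2) E2'
  · intro h
    exact hP0 ((ModularForm.qExpansion_eq_zero_iff one_pos h1S P).mp h)
  · refine Submodule.sum_mem _ fun j _ => ?_
    exact bddSpan_mul (bddSpan_mul (levelOne_qExpansion_mem_bddSpan (C j))
      (bddSpan_pow (bddDen_dil N).mem_bddSpan _)) (bddSpan_pow bddDen_discriminant.mem_bddSpan _)

theorem main_even (N : ℕ) [NeZero N] {k : ℤ} (hk : Even k) : CuspForm.HasIntegralStructure N k := by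
  have := main_finiteDimensional N k
  have hspan := span_rational_eq_top (coeffMap N k) (coeffMap_injective N k) (by
    intro σ f
    obtain ⟨g, hg⟩ := exists_conj N hk σ.toRingHom f
    refine ⟨g, fun n => ?_⟩
    rw [coeffMap_apply, hg, PowerSeries.coeff_map]
    rfl)
  unfold CuspForm.HasIntegralStructure
  rw [eq_top_iff, ← hspan, Submodule.span_le]
  intro f hf
  obtain ⟨D, hD, hDf⟩ := main_bddDen_of_rat N hk f hf
  have hD' : (D : ℂ) ≠ 0 := by exact_mod_cast hD
  have hmem : (D : ℂ) • f ∈ CuspForm.intLattice N k := by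
    apply Submodule.subset_span
    intro n
    obtain ⟨m, hm⟩ := hDf n
    refine ⟨m, ?_⟩
    rw [← hm]
    have := ModularForm.qExpansion_smul one_pos
      (CongruenceSubgroup.one_mem_strictPeriods_Gamma0 N) (D : ℂ) f
    unfold ModularFormClass.qCoeff
    rw [FunLike.coe_smul, this, PowerSeries.coeff_smul, smul_eq_mul]
  have hfD : f = (D : ℂ)⁻¹ • ((D : ℂ) • f) := by
    rw [smul_smul, inv_mul_cancel₀ hD', one_smul]
  rw [hfD]
  exact Submodule.smul_mem _ _ (Submodule.subset_span hmem)

theorem main_odd (N : ℕ) [NeZero N] {k : ℤ} (hk : Odd k) : CuspForm.HasIntegralStructure N k := by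
  have h0 : ∀ f : CuspForm (Gamma0 N) k, f = 0 := by
    intro f
    have hneg : (-1 : GL (Fin 2) ℝ) ∈ (Gamma0 N : Subgroup (GL (Fin 2) ℝ)) := by
      refine ⟨-1, ?_, ?_⟩
      · simp [Gamma0_mem]
      · ext; simp
    have hmf : (ModularFormClass.modularForm f : ModularForm (Gamma0 N) k) = 0 :=
      ModularForm.eq_zero_of_neg_one_mem hneg hk _
    ext τ
    exact congrArg (fun F : ModularForm (Gamma0 N) k => F τ) hmf
  unfold CuspForm.HasIntegralStructure
  rw [eq_top_iff]
  intro f _
  rw [h0 f]
  exact Submodule.zero_mem _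

/-- **Integral structure** on `S_k(Γ₀(N))`, for every weight. -/
theorem hasIntegralStructure (N : ℕ) [NeZero N] (k : ℤ) : CuspForm.HasIntegralStructure N k := by
  rcases Int.even_or_odd k with hk | hk
  · exact main_even N hk
  · exact main_odd N hk

end Fermat.Agent.S23
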