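import Mathlib
import Fermat.Agent.S23.Main
import Fermat.Prelude.Def_CuspForm_HeckeAlgebra
import Fermat.Prelude.Thm_CuspForm_intLattice_fg
import Fermat.Prelude.Thm_CuspForm_mem_intLattice_of_mem_heckeAlgebra

set_option autoImplicit false

namespace Fermat.Agent.S23

open UpperHalfPlane ModularForm CongruenceSubgroup
open scoped MatrixGroups Manifold

/-- cusp forms of weight `≤ 0` vanish -/
theorem hecke_eq_zero_of_nonpos (N : ℕ) [NeZero N] {k : ℤ} (hk : k ≤ 0)
    (f : CuspForm (Gamma0 N) k) : f = 0 := by
  refine main_eq_zero_of_sturm N k f fun n hn => ?_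
  have h0 : (k * ((Gamma0 N).index : ℤ)).toNat = 0 := by
    apply Int.toNat_of_nonpos
    exact mul_nonpos_of_nonpos_of_nonneg hk (by positivity)
  rw [h0] at hn
  have hn0 : n = 0 := by omega
  subst hn0
  exact CuspFormClass.qExpansion_coeff_zero f one_pos
    (CongruenceSubgroup.one_mem_strictPeriods_Gamma0 N)

/-- The Hecke algebra is a finitely generated `ℤ`-module (consequence of the integral structure). -/
theorem heckeAlgebra_finite (N : ℕ) [NeZero N] (k : ℤ) (S : Set ℕ) :
    Module.Finite ℤ (CuspForm.heckeAlgebra N k S) := by
  rcases le_or_gt k 0 with hk | hk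
  · have hsub : Subsingleton (CuspForm (Gamma0 N) k) :=
      ⟨fun f g => by rw [hecke_eq_zero_of_nonpos N hk f, hecke_eq_zero_of_nonpos N hk g]⟩
    have : Subsingleton (CuspForm.heckeAlgebra N k S) :=
      ⟨fun a b => Subtype.ext (LinearMap.ext fun x => Subsingleton.elim _ _)⟩
    infer_instance
  · have hk1 : 1 ≤ k := hk
    set L := CuspForm.intLattice N k with hL
    have hfg : Module.Finite ℤ L := Module.Finite.iff_fg.mpr (CuspForm.intLattice_fg N k)
    have htf : IsAddTorsionFree (CuspForm (Gamma0 N) k) :=
      { nsmul_right_injective := fun n hn a b hab => by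
          have h : (n : ℂ) • a = (n : ℂ) • b := by
            simpa only [Nat.cast_smul_eq_nsmul] using hab
          exact smul_right_injective _ (Nat.cast_ne_zero.mpr hn) h }
    have hfree : Module.Free ℤ L := inferInstance
    -- restriction to the lattice
    let ρ : CuspForm.heckeAlgebra N k S →ₗ[ℤ] (L →ₗ[ℤ] L) :=
      { toFun := fun t =>
          { toFun := fun x => ⟨t.1 x.1, CuspForm.mem_intLattice_of_mem_heckeAlgebra hk1 t.2 x.2⟩
            map_add' := fun x y => Subtype.ext (by simp)
            map_smul' := fun c x => Subtype.ext (by simp) }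
        map_add' := fun s t => LinearMap.ext fun x => Subtype.ext (by simp)
        map_smul' := fun c t => LinearMap.ext fun x => Subtype.ext (by simp) }
    have hρ : Function.Injective ρ := by
      rw [injective_iff_map_eq_zero]
      intro t ht
      apply Subtype.ext
      have hspan := hasIntegralStructure N k
      unfold CuspForm.HasIntegralStructure at hspan
      apply LinearMap.ext_on hspan
      intro x hx
      have := congrArg Subtype.val (LinearMap.congr_fun ht ⟨x, hx⟩)
      simpa [ρ] using this
    exact Module.Finite.of_injective ρ hρ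

end Fermat.Agent.S23
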